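/-
N4-FULL, rows G2 / S42: the INTERFACE of the S29 / S42 assembly.

Exact Lean shapes of what the blocks A2, F6, Cont, Cheb (Frobenius density), G1 (involution trick)
and the S37 path (`Core.ESCore`) deliver, as `Prop`-valued definitions, so that `S29.lean`
and `S42.lean` close by plugging.  All objects are the prelude's:
`JZero N`, `Pic0.torsion`, `heckeOperatorBar N ℓ`, `JZero.torsionGaloisRep`.
-/
import Mathlib
import Fermat.Prelude.Def_ModularCurve_HeckeModule
import Fermat.Prelude.Def_GaloisRep_Residual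
import Fermat.Agent.N4F.Core
import Fermat.Agent.N4F.CoreTors

set_option autoImplicit false

open ModularCurve AlgebraicCurve
open scoped TensorProduct

noncomputable section

namespace Fermat.Agent.N4F.Res

local notation "Qbar" => AlgebraicClosure ℚ
local notation "Γ" => (AlgebraicClosure ℚ ≃ₐ[ℚ] AlgebraicClosure ℚ)

section Torsion

variable (N : ℕ) [NeZero N] (n : ℕ)

/-- The `n`-torsion of `J_0(N)(ℚ̄)`, the prelude's `Pic0.torsion`. -/
abbrev Jtors : AddSubgroup (JZero N) := Pic0.torsion Qbar (modularFunctionFieldBar N) n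

theorem mem_Jtors_iff (x : JZero N) : x ∈ Jtors N n ↔ n • x = 0 := by
  rw [Pic0.mem_torsion]
  exact Iff.of_eq (congrArg (· = 0) (natCast_zsmul x n))

/-- The Hecke operator `T_ℓ` (the prelude's `heckeOperatorBar N ℓ`) preserves torsion. -/
theorem heckeOperatorBar_mem_Jtors (ℓ : Nat.Primes) {x : JZero N} (hx : x ∈ Jtors N n) :
    heckeOperatorBar N ℓ x ∈ Jtors N n := by
  rw [mem_Jtors_iff] at hx ⊢
  rw [← map_nsmul, hx, map_zero]

/-- `T_ℓ` on the `n`-torsion, as an additive endomorphism. -/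
def heckeTorsAdd (ℓ : Nat.Primes) : Jtors N n →+ Jtors N n where
  toFun x := ⟨heckeOperatorBar N ℓ x, heckeOperatorBar_mem_Jtors N n ℓ x.2⟩
  map_zero' := Subtype.ext (map_zero _)
  map_add' x y := Subtype.ext (map_add _ _ _)

/-- `T_ℓ` on the `n`-torsion, as a `ZMod n`-linear endomorphism. -/
def heckeTors (ℓ : Nat.Primes) : Module.End (ZMod n) (Jtors N n) :=
  (heckeTorsAdd N n ℓ).toZModLinearMap n

@[simp]
theorem coe_heckeTors_apply (ℓ : Nat.Primes) (x : Jtors N n) :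
    ((heckeTors N n ℓ x : Jtors N n) : JZero N) = heckeOperatorBar N ℓ (x : JZero N) := rfl

/-- The Galois action on the `n`-torsion (the prelude's `JZero.torsionGaloisRep`). -/
abbrev galTors : Γ →* Module.End (ZMod n) (Jtors N n) := JZero.torsionGaloisRep N n

@[simp]
theorem coe_galTors_apply (σ : Γ) (x : Jtors N n) :
    ((galTors N n σ x : Jtors N n) : JZero N) = σ • (x : JZero N) := rfl

end Torsion

/-! ### The interface statements -/

section Interface

variable (N : ℕ) [NeZero N]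

/-- **(OUT1, block F6)** the torsion subgroups of `J_0(N)(ℚ̄)` are finite. -/
def TorsionFinite : Prop := ∀ n : ℕ, 0 < n → Finite (Jtors N n)

/-- **(Cont)** every point of `J_0(N)(ℚ̄)` is fixed by an open subgroup of the Galois group. -/
def OpenStabilizers : Prop :=
  ∀ x : JZero N, ∃ L : IntermediateField ℚ Qbar, FiniteDimensional ℚ L ∧
    ∀ σ : Γ, (∀ y ∈ L, σ y = y) → σ • x = x

/-- **(A2)** the Galois action commutes with every Hecke operator. -/
def GaloisHeckeComm : Prop :=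
  ∀ (ℓ : Nat.Primes) (σ : Γ) (x : JZero N),
    heckeOperatorBar N ℓ (σ • x) = σ • heckeOperatorBar N ℓ x

/-- **(S37 path: A1 + C + E + S18)** the core statement at every good prime. -/
def ESCoreAll : Prop :=
  ∀ (ℓ : ℕ) (hℓ : ℓ.Prime), ¬ ℓ ∣ N → ∀ A : ValuationSubring Qbar, A.LiesOverPrime ℓ →
    Core.ESCore N ℓ hℓ A

/-- The torsion form of the core at every good prime (enough for S29 / S30 / S42; this is what
block E's torsion shortcut delivers). -/
def ESCoreTorsAll : Prop :=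
  ∀ (ℓ : ℕ) (hℓ : ℓ.Prime), ¬ ℓ ∣ N → ∀ A : ValuationSubring Qbar, A.LiesOverPrime ℓ →
    Core.ESCoreTors N ℓ hℓ A

/-- **What the assembly consumes from the S37 path**: unramifiedness and the Eichler–Shimura
relation on prime-to-`ℓ` torsion, at every good prime `ℓ`. -/
def ESOnTorsionAll : Prop :=
  ∀ (ℓ : ℕ) (hℓ : ℓ.Prime), ¬ ℓ ∣ N → ∀ A : ValuationSubring Qbar, A.LiesOverPrime ℓ →
    Core.ESOnTorsion N ℓ hℓ A

variable {N} in
theorem ESCoreAll.tors (h : ESCoreAll N) : ESCoreTorsAll N :=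
  fun ℓ hℓ hℓN A hA => (h ℓ hℓ hℓN A hA).tors

variable {N} in
theorem ESCoreTorsAll.esOnTorsionAll (h : ESCoreTorsAll N) : ESOnTorsionAll N :=
  fun ℓ hℓ hℓN A hA => (h ℓ hℓ hℓN A hA).esOnTorsion

variable {N} in
theorem ESCoreAll.esOnTorsionAll (h : ESCoreAll N) : ESOnTorsionAll N :=
  h.tors.esOnTorsionAll

/-- **(OUT2, block F6)** the system of eigenvalues `lam` occurs in `𝔽 ⊗ J_0(N)[p]`: there is a
nonzero common eigenvector of the `T_ℓ`, `ℓ ∤ N`, with eigenvalues `lam ℓ`. -/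
def Occurs (p : ℕ) (𝔽 : Type) [Field 𝔽] [Algebra (ZMod p) 𝔽] (lam : Nat.Primes → 𝔽) : Prop :=
  ∃ v : 𝔽 ⊗[ZMod p] (Jtors N p), v ≠ 0 ∧
    ∀ ℓ : Nat.Primes, ¬ (ℓ : ℕ) ∣ N → (heckeTors N p ℓ).baseChange 𝔽 v = lam ℓ • v

/-- **(F4 + F6)** what block F delivers for a normalized eigenform `g` of level `N`:
its prime-index coefficients are algebraic integers, and for every prime `p`, every field `𝔽` of
characteristic `p` (NOT necessarily algebraically closed: the frozen S29 is stated over an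
arbitrary field, and `N4F/Tors/Occurrence.lean` needs no algebraic closedness) and every
`φ : ℤ̄ → 𝔽` the eigensystem `ℓ ↦ φ (a_ℓ(g))` occurs in `𝔽 ⊗ J_0(N)[p]`.

Binder order: `[Algebra (ZMod p) 𝔽]` is elaborated BEFORE `[Fact p.Prime]` is in scope, so that
the semiring structure of `ZMod p` is `ZMod.commRing p` (as in `Occurs`, `WW`, ...) and not the
one coming from `ZMod.instField` (defeq, but keep it syntactically equal). -/
def EigenformOccurs {g : CuspForm (CongruenceSubgroup.Gamma0 N) 2}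
    (_hg : g.IsNormalizedEigenform) : Prop :=
  ∃ a : Nat.Primes → integralClosure ℤ ℂ,
    (∀ ℓ : Nat.Primes, ¬ (ℓ : ℕ) ∣ N → (a ℓ : ℂ) = ModularFormClass.qCoeff g ℓ) ∧
    ∀ (p : ℕ) (𝔽 : Type) [Field 𝔽] [Algebra (ZMod p) 𝔽] [Fact p.Prime]
      (φ : integralClosure ℤ ℂ →+* 𝔽), Occurs N p 𝔽 fun ℓ => φ (a ℓ)

/-- The same for algebraically closed fields `𝔽` only (weaker; `EigenformOccurs` is what the
assembly consumes). -/
def EigenformOccursAlgClosed {g : CuspForm (CongruenceSubgroup.Gamma0 N) 2}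
    (_hg : g.IsNormalizedEigenform) : Prop :=
  ∃ a : Nat.Primes → integralClosure ℤ ℂ,
    (∀ ℓ : Nat.Primes, ¬ (ℓ : ℕ) ∣ N → (a ℓ : ℂ) = ModularFormClass.qCoeff g ℓ) ∧
    ∀ (p : ℕ) (𝔽 : Type) [Field 𝔽] [IsAlgClosed 𝔽] [Algebra (ZMod p) 𝔽] [Fact p.Prime]
      (φ : integralClosure ℤ ℂ →+* 𝔽), Occurs N p 𝔽 fun ℓ => φ (a ℓ)

theorem EigenformOccurs.algClosed {g : CuspForm (CongruenceSubgroup.Gamma0 N) 2}
    {hg : g.IsNormalizedEigenform} (h : EigenformOccurs N hg) : EigenformOccursAlgClosed N hg := by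
  obtain ⟨a, ha, h⟩ := h
  exact ⟨a, ha, fun p 𝔽 _ _ _ _ φ => h p 𝔽 φ⟩

end Interface

/-- **(Cheb, Frobenius-density form; consumer shape)** every element `g` of the Galois group
agrees on a given finite extension `L` with a POWER of a Frobenius element at a prime outside a
given finite set. -/
def FrobeniusPowerDensity : Prop :=
  ∀ (L : IntermediateField ℚ Qbar), FiniteDimensional ℚ L → ∀ (g : Γ) (T : Finset ℕ),
    ∃ ℓ : ℕ, ℓ.Prime ∧ ℓ ∉ T ∧ ∃ A : ValuationSubring Qbar, A.LiesOverPrime ℓ ∧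
      ∃ f : Γ, A.IsFrobeniusAt f ℓ ∧ ∃ j : ℕ, ∀ y ∈ L, g y = (f ^ j) y

/-- **(G1, involution trick; consumer shape)** an irreducible finite-dimensional representation
over an algebraically closed field all of whose elements satisfy a quadratic relation
`ρ(g)² - s ρ(g) + χ(g) = 0` with `χ` a character has dimension at most `2`; in dimension `2`,
`det ρ(g) = χ(g)` and the scalar `s` is the trace. -/
def InvolutionTrick : Prop :=
  ∀ (𝔽 : Type) [Field 𝔽] [IsAlgClosed 𝔽] (G : Type) [Group G] (U : Type) [AddCommGroup U]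
    [Module 𝔽 U] [FiniteDimensional 𝔽 U] (ρ : G →* Module.End 𝔽 U),
    (∀ W : Submodule 𝔽 U, (∀ g : G, ∀ x ∈ W, ρ g x ∈ W) → W = ⊥ ∨ W = ⊤) →
    ∀ χ : G →* 𝔽ˣ, (∀ g : G, ∃ s : 𝔽, ρ g * ρ g - s • ρ g + ((χ g : 𝔽ˣ) : 𝔽) • 1 = 0) →
      Module.finrank 𝔽 U ≤ 2 ∧
        (Module.finrank 𝔽 U = 2 → ∀ g : G, LinearMap.det (ρ g) = ((χ g : 𝔽ˣ) : 𝔽) ∧
          ∀ s : 𝔽, ρ g * ρ g - s • ρ g + ((χ g : 𝔽ˣ) : 𝔽) • 1 = 0 →
            LinearMap.trace 𝔽 U (ρ g) = s)

end Fermat.Agent.N4F.Res
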