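/-
N4-FULL, row G2 (S29 assembly), part 2: the mod `p` cyclotomic character at Frobenius and
inertia elements of primes `ℓ ≠ p`.
-/
import Mathlib
import Fermat.Prelude.Def_EllipticCurve_FrobeniusTrace
import Fermat.Agent.S14.GaloisModule
import Fermat.Agent.S54.Frobenius
import Fermat.Agent.N4F.Core

set_option autoImplicit false

open Polynomial

noncomputable section

namespace Fermat.Agent.N4F.Res

local notation "Qbar" => AlgebraicClosure ℚ
local notation "Γ" => (AlgebraicClosure ℚ ≃ₐ[ℚ] AlgebraicClosure ℚ)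

open Fermat.Agent.S14.GaloisModule (chi apply_of_pow_eq_one cast_cycloExp)

section Distinct

variable {p : ℕ} [hp : Fact p.Prime]

/-- For a primitive `p`-th root of unity `c`, `1 - c` divides `p` in the ring of algebraic
integers. -/
theorem exists_integral_mul_eq_prime {c : Qbar} (hc : IsPrimitiveRoot c p) :
    ∃ d : Qbar, IsIntegral ℤ d ∧ (1 - c) * d = p := by
  classical
  have hpos : 0 < p := hp.out.pos
  have hcyc := Polynomial.cyclotomic_eq_prod_X_sub_primitiveRoots (K := Qbar) hc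
  have hmem : c ∈ primitiveRoots p Qbar := (mem_primitiveRoots hpos).mpr hc
  have heval : (p : Qbar) = ∏ μ ∈ primitiveRoots p Qbar, (1 - μ) := by
    have h1 : eval 1 (cyclotomic p Qbar) = (p : Qbar) := by
      rw [Polynomial.eval_one_cyclotomic_prime]
    rw [← h1, hcyc, eval_prod]
    simp
  refine ⟨∏ μ ∈ (primitiveRoots p Qbar).erase c, (1 - μ), ?_, ?_⟩
  · refine IsIntegral.prod _ fun μ hμ => ?_
    have hμ' : IsPrimitiveRoot μ p :=
      (mem_primitiveRoots hpos).mp (Finset.mem_of_mem_erase hμ)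
    exact isIntegral_one.sub (hμ'.isIntegral hpos)
  · rw [heval, Finset.mul_prod_erase _ _ hmem]

/-- Distinct `p`-th roots of unity stay distinct modulo a prime `ℓ ≠ p`: if `ζ^a - ζ^b` is a
non-unit of a valuation subring over `ℓ`, then `a ≡ b mod p`. -/
theorem natCast_eq_of_pow_sub_pow_mem_nonunits (A : ValuationSubring Qbar) {ℓ : ℕ}
    (hℓ : ℓ.Prime) (hA : A.LiesOverPrime ℓ) (hℓp : ℓ ≠ p) {ζ : Qbar} (hζ : IsPrimitiveRoot ζ p)
    {a b : ℕ} (h : ζ ^ a - ζ ^ b ∈ A.nonunits) : (a : ZMod p) = (b : ZMod p) := by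
  by_contra hab
  wlog hle : b ≤ a generalizing a b
  · refine this (a := b) (b := a) ?_ (fun e => hab e.symm) (le_of_not_ge hle)
    have : ζ ^ b - ζ ^ a = -(ζ ^ a - ζ ^ b) := by ring
    rw [this]
    exact A.nonunits.neg_mem h
  -- `c = ζ^(a-b)` is a primitive root
  have hpos : 0 < p := hp.out.pos
  have hndvd : ¬ p ∣ (a - b) := by
    intro hd
    apply hab
    have : (a : ZMod p) = ((a - b : ℕ) : ZMod p) + (b : ZMod p) := by
      rw [← Nat.cast_add, Nat.sub_add_cancel hle]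
    rw [this, (ZMod.natCast_eq_zero_iff (a - b) p).mpr hd, zero_add]
  have hc : IsPrimitiveRoot (ζ ^ (a - b)) p :=
    hζ.pow_of_coprime (a - b) ((Nat.Prime.coprime_iff_not_dvd hp.out).mpr hndvd).symm
  obtain ⟨d, hd, hmul⟩ := exists_integral_mul_eq_prime hc
  have hζint : IsIntegral ℤ ζ := hζ.isIntegral hpos
  have hζbA : ζ ^ b ∈ A := Fermat.Agent.S54.mem_valuationSubring_of_isIntegral_int A (hζint.pow b)
  have hdA : d ∈ A := Fermat.Agent.S54.mem_valuationSubring_of_isIntegral_int A hd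
  -- `ζ^a - ζ^b = -ζ^b (1 - c)`
  have hfac : ζ ^ a - ζ ^ b = -(ζ ^ b) * (1 - ζ ^ (a - b)) := by
    have : ζ ^ a = ζ ^ b * ζ ^ (a - b) := by rw [← pow_add, Nat.add_sub_cancel' hle]
    rw [this]; ring
  -- hence `ζ^b * p` is a non-unit
  have hp_mem : (ζ ^ b) * (p : Qbar) ∈ A.nonunits := by
    have e : (ζ ^ b) * (p : Qbar) = -((ζ ^ a - ζ ^ b) * d) := by
      rw [← hmul, hfac]; ring
    rw [e]
    refine A.nonunits.neg_mem ?_
    rw [A.mem_nonunits_iff, map_mul]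
    exact mul_lt_one_of_nonneg_of_lt_one_left zero_le (A.mem_nonunits_iff.mp h)
      ((A.valuation_le_one_iff _).mpr hdA)
  -- `ζ^b` is a unit of `A`, so `p` is a non-unit
  have hζb_unit : A.valuation (ζ ^ b) = 1 := by
    have h1 : A.valuation ζ ^ p = 1 := by rw [← map_pow, hζ.pow_eq_one, map_one]
    have h2 : A.valuation ζ = 1 := (pow_eq_one_iff_of_nonneg zero_le hpos.ne').mp h1
    rw [map_pow, h2, one_pow]
  have hp_non : (p : Qbar) ∈ A.nonunits := by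
    rw [A.mem_nonunits_iff] at hp_mem ⊢
    rwa [map_mul, hζb_unit, one_mul] at hp_mem
  -- but `ℓ` is a non-unit too and `gcd(p, ℓ) = 1`
  have hcop : Nat.Coprime p ℓ := (Nat.coprime_primes hp.out hℓ).mpr fun e => hℓp e.symm
  have hbez : ((p : ℤ) : Qbar) * (Nat.gcdA p ℓ : Qbar) + ((ℓ : ℤ) : Qbar) * (Nat.gcdB p ℓ : Qbar)
      = 1 := by
    have := Nat.gcd_eq_gcd_ab p ℓ
    rw [hcop.gcd_eq_one] at this
    have h2 := congrArg (fun z : ℤ => (z : Qbar)) this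
    simp only [Int.cast_add, Int.cast_mul, Nat.cast_one, Int.cast_one, Int.cast_natCast] at h2
    simpa using h2.symm
  have hone : (1 : Qbar) ∈ A.nonunits := by
    rw [← hbez]
    have hz : ∀ z : ℤ, (z : Qbar) ∈ A := fun z => intCast_mem A z
    have hA' : ((ℓ : ℕ) : Qbar) ∈ A.nonunits := hA
    have hℓ_non : ((ℓ : ℤ) : Qbar) ∈ A.nonunits := by simpa using hA'
    have hp_non' : ((p : ℤ) : Qbar) ∈ A.nonunits := by simpa using hp_non
    rw [A.mem_nonunits_iff] at hℓ_non hp_non' ⊢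
    refine lt_of_le_of_lt (A.valuation.map_add _ _) (max_lt ?_ ?_)
    · rw [map_mul]
      exact mul_lt_one_of_nonneg_of_lt_one_left zero_le hp_non'
        ((A.valuation_le_one_iff _).mpr (hz _))
    · rw [map_mul]
      exact mul_lt_one_of_nonneg_of_lt_one_left zero_le hℓ_non
        ((A.valuation_le_one_iff _).mpr (hz _))
  exact (A.mem_nonunits_iff.mp hone).ne (map_one _)

end Distinct

section Values

variable (p : ℕ) [hp : Fact p.Prime]

theorem exists_isPrimitiveRoot_Qbar : ∃ ζ : Qbar, IsPrimitiveRoot ζ p :=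
  haveI : NeZero ((p : ℕ) : Qbar) := ⟨Nat.cast_ne_zero.mpr hp.out.ne_zero⟩
  HasEnoughRootsOfUnity.exists_primitiveRoot Qbar p

variable {p}

/-- The residue of `σ b` for `σ` in the decomposition group. -/
theorem residue_smul_eq (A : ValuationSubring Qbar) {σ : Γ} (hσ : σ ∈ A.decompositionSubgroup ℚ)
    (b : A) (hσb : σ (b : Qbar) ∈ A) :
    (⟨σ, hσ⟩ : A.decompositionSubgroup ℚ) • IsLocalRing.residue A b
      = IsLocalRing.residue A ⟨σ (b : Qbar), hσb⟩ := by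
  rw [← IsLocalRing.ResidueField.residue_smul]
  rfl

/-- **The cyclotomic character at a Frobenius element**: `χ(σ) = ℓ mod p`. -/
theorem chi_of_isFrobeniusAt (A : ValuationSubring Qbar) {ℓ : ℕ} (hℓ : ℓ.Prime)
    (hA : A.LiesOverPrime ℓ) (hℓp : ℓ ≠ p) {σ : Γ} (hσ : A.IsFrobeniusAt σ ℓ) :
    ((chi p σ : (ZMod p)ˣ) : ZMod p) = (ℓ : ZMod p) := by
  obtain ⟨ζ, hζ⟩ := exists_isPrimitiveRoot_Qbar p
  have hpos : 0 < p := hp.out.pos
  have hζint : IsIntegral ℤ ζ := hζ.isIntegral hpos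
  have hζA : ζ ∈ A := Fermat.Agent.S54.mem_valuationSubring_of_isIntegral_int A hζint
  have hσD := hσ.mem_decompositionSubgroup
  have hσζ : σ ζ = ζ ^ ExtCitation.cycloExp p σ := apply_of_pow_eq_one p σ hζ.pow_eq_one
  have hσζA : σ ζ ∈ A := by rw [hσζ]; exact pow_mem hζA _
  have h1 := hσ.smul_residue_eq (IsLocalRing.residue A ⟨ζ, hζA⟩)
  rw [residue_smul_eq A hσD ⟨ζ, hζA⟩ hσζA, ← map_pow, ← sub_eq_zero, ← map_sub,
    IsLocalRing.residue_eq_zero_iff, ← ValuationSubring.coe_mem_nonunits_iff] at h1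
  have h2 : ζ ^ ExtCitation.cycloExp p σ - ζ ^ ℓ ∈ A.nonunits := by
    rw [← hσζ]; exact h1
  rw [← cast_cycloExp]
  exact natCast_eq_of_pow_sub_pow_mem_nonunits A hℓ hA hℓp hζ h2

/-- **The cyclotomic character is unramified at `ℓ ≠ p`.** -/
theorem chi_of_mem_inertia (A : ValuationSubring Qbar) {ℓ : ℕ} (hℓ : ℓ.Prime)
    (hA : A.LiesOverPrime ℓ) (hℓp : ℓ ≠ p) {τ : Γ} (hτ : τ ∈ A.inertiaSubgroupIn ℚ) :
    chi p τ = 1 := by
  obtain ⟨ζ, hζ⟩ := exists_isPrimitiveRoot_Qbar p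
  have hpos : 0 < p := hp.out.pos
  have hζint : IsIntegral ℤ ζ := hζ.isIntegral hpos
  have hζA : ζ ∈ A := Fermat.Agent.S54.mem_valuationSubring_of_isIntegral_int A hζint
  obtain ⟨hτD, hτx⟩ := (Core.mem_inertiaSubgroupIn_iff A τ).mp hτ
  have hτζ : τ ζ = ζ ^ ExtCitation.cycloExp p τ := apply_of_pow_eq_one p τ hζ.pow_eq_one
  have hτζA : τ ζ ∈ A := by rw [hτζ]; exact pow_mem hζA _
  have h1 := hτx (IsLocalRing.residue A ⟨ζ, hζA⟩)
  rw [residue_smul_eq A hτD ⟨ζ, hζA⟩ hτζA, ← sub_eq_zero, ← map_sub,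
    IsLocalRing.residue_eq_zero_iff, ← ValuationSubring.coe_mem_nonunits_iff] at h1
  have h2 : ζ ^ ExtCitation.cycloExp p τ - ζ ^ 1 ∈ A.nonunits := by
    rw [← hτζ, pow_one]; exact h1
  have h3 := natCast_eq_of_pow_sub_pow_mem_nonunits A hℓ hA hℓp hζ h2
  apply Units.ext
  rw [Units.val_one, ← cast_cycloExp, h3, Nat.cast_one]

/-- `χ(σ) = 1` for `σ` fixing a primitive `p`-th root of unity. -/
theorem chi_eq_one_of_fix {ζ : Qbar} (hζ : IsPrimitiveRoot ζ p) {σ : Γ} (hσ : σ ζ = ζ) :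
    chi p σ = 1 :=
  MonoidHom.mem_ker.mp ((Fermat.Agent.S14.GaloisModule.mem_ker_chi_iff p σ hζ).mpr hσ)

end Values

/-! ### The character with values in a field of characteristic `p` -/

section Field

variable (p : ℕ) (𝔽 : Type) [Field 𝔽] [Algebra (ZMod p) 𝔽] [hp : Fact p.Prime]

/-- The mod `p` cyclotomic character with values in `𝔽ˣ`. -/
def chiF : Γ →* 𝔽ˣ := (Units.map (algebraMap (ZMod p) 𝔽 : ZMod p →* 𝔽)).comp (chi p)

variable {p 𝔽}

theorem coe_chiF (σ : Γ) :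
    ((chiF p 𝔽 σ : 𝔽ˣ) : 𝔽) = algebraMap (ZMod p) 𝔽 ((chi p σ : (ZMod p)ˣ) : ZMod p) := rfl

theorem chiF_of_isFrobeniusAt (A : ValuationSubring Qbar) {ℓ : ℕ} (hℓ : ℓ.Prime)
    (hA : A.LiesOverPrime ℓ) (hℓp : ℓ ≠ p) {σ : Γ} (hσ : A.IsFrobeniusAt σ ℓ) :
    ((chiF p 𝔽 σ : 𝔽ˣ) : 𝔽) = (ℓ : 𝔽) := by
  rw [coe_chiF, chi_of_isFrobeniusAt A hℓ hA hℓp hσ, map_natCast]

theorem chiF_of_mem_inertia (A : ValuationSubring Qbar) {ℓ : ℕ} (hℓ : ℓ.Prime)
    (hA : A.LiesOverPrime ℓ) (hℓp : ℓ ≠ p) {τ : Γ} (hτ : τ ∈ A.inertiaSubgroupIn ℚ) :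
    chiF p 𝔽 τ = 1 := by
  rw [chiF, MonoidHom.comp_apply, chi_of_mem_inertia A hℓ hA hℓp hτ, map_one]

theorem chiF_eq_one_of_fix {ζ : Qbar} (hζ : IsPrimitiveRoot ζ p) {σ : Γ} (hσ : σ ζ = ζ) :
    chiF p 𝔽 σ = 1 := by
  rw [chiF, MonoidHom.comp_apply, chi_eq_one_of_fix hζ hσ, map_one]

end Field

end Fermat.Agent.N4F.Res
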