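/-
N4-FULL, row G2 (S29 assembly), part 1: the representation `W = 𝔽 ⊗ J_0(N)[p]`, the Hecke
operators on it, the eigenspace of a system of eigenvalues, and the consequences of
`Core.ESCore` (unramifiedness + Eichler–Shimura relation) on the eigenspace.
-/
import Mathlib
import Fermat.Agent.N4F.Res.Interface

set_option autoImplicit false

open ModularCurve AlgebraicCurve
open scoped TensorProduct

noncomputable section

namespace Fermat.Agent.N4F.Res

local notation "Qbar" => AlgebraicClosure ℚ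
local notation "Γ" => (AlgebraicClosure ℚ ≃ₐ[ℚ] AlgebraicClosure ℚ)

/-! ### A Lucas-sequence (Dickson) lemma -/

section Lucas

variable {R : Type*} [CommRing R]

/-- The Lucas sequence `V_m(a, b)`: `V_0 = 2`, `V_1 = a`, `V_{m+2} = a V_{m+1} - b V_m`. -/
def lucasV (a b : R) : ℕ → R
  | 0 => 2
  | 1 => a
  | (m + 2) => a * lucasV a b (m + 1) - b * lucasV a b m

variable {E : Type*} [Ring E] [Algebra R E]

theorem pow_add_pow_eq_lucasV (a b : R) (f f' : E) (hcomm : f * f' = f' * f)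
    (hsum : f + f' = algebraMap R E a) (hprod : f * f' = algebraMap R E b) (m : ℕ) :
    f ^ m + f' ^ m = algebraMap R E (lucasV a b m) := by
  induction m using Nat.strong_induction_on with
  | _ m ih =>
    match m with
    | 0 =>
      rw [pow_zero, pow_zero, lucasV, one_add_one_eq_two]
      exact (map_ofNat (algebraMap R E) 2).symm
    | 1 => simpa [lucasV] using hsum
    | (m + 2) =>
      have h1 := ih (m + 1) (by omega)
      have h0 := ih m (by omega)
      have hc : Commute f f' := hcomm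
      have key : f ^ (m + 2) + f' ^ (m + 2) =
          (f + f') * (f ^ (m + 1) + f' ^ (m + 1)) - (f * f') * (f ^ m + f' ^ m) := by
        have e1 : f' * f ^ (m + 1) = (f * f') * f ^ m := by
          rw [pow_succ', ← mul_assoc, hcomm]
        have e2 : f * f' ^ (m + 1) = (f * f') * f' ^ m := by
          rw [pow_succ', ← mul_assoc]
        rw [add_mul, mul_add, mul_add, mul_add, e1, e2, pow_succ' f (m + 1), pow_succ' f' (m + 1)]
        abel
      rw [key, hsum, hprod, h1, h0, lucasV, map_sub, map_mul, map_mul]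

/-- If `f² - a f + b = 0` with `f` invertible-free formulation: `f' := a - f` satisfies
`f f' = b`; then `f^m` satisfies `X² - V_m X + b^m`. -/
theorem pow_quadratic (a b : R) (f : E)
    (h : f * f - algebraMap R E a * f + algebraMap R E b = 0) (m : ℕ) :
    f ^ m * f ^ m - algebraMap R E (lucasV a b m) * f ^ m + algebraMap R E (b ^ m) = 0 := by
  set f' : E := algebraMap R E a - f with hf'
  have hcomm : f * f' = f' * f := by
    rw [hf', mul_sub, sub_mul, Algebra.commutes a f]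
  have hsum : f + f' = algebraMap R E a := by rw [hf']; abel
  have hprod : f * f' = algebraMap R E b := by
    rw [hf', mul_sub, ← Algebra.commutes a f]
    have : f * f = algebraMap R E a * f - algebraMap R E b := by
      rw [eq_sub_iff_add_eq, ← sub_eq_zero]
      rw [← h]; abel
    rw [this]; abel
  have hV := pow_add_pow_eq_lucasV a b f f' hcomm hsum hprod m
  have hc : Commute f f' := hcomm
  rw [← hV, map_pow, ← hprod, hc.mul_pow, add_mul]
  have : f' ^ m * f ^ m = f ^ m * f' ^ m := ((hc.pow_pow m m).eq).symm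
  rw [this]; abel

end Lucas

/-! ### The representation on `𝔽 ⊗ J_0(N)[p]` -/

section TensorRep

variable (N : ℕ) [NeZero N] (p : ℕ) (𝔽 : Type) [Field 𝔽] [Algebra (ZMod p) 𝔽]

/-- `W = 𝔽 ⊗_{𝔽_p} J_0(N)(ℚ̄)[p]`. -/
abbrev WW : Type := 𝔽 ⊗[ZMod p] (Jtors N p)

/-- The Galois action on `W`. -/
def galW : Γ →* Module.End 𝔽 (WW N p 𝔽) where
  toFun σ := (galTors N p σ).baseChange 𝔽
  map_one' := by rw [map_one, LinearMap.baseChange_one]
  map_mul' σ τ := by rw [map_mul, LinearMap.baseChange_mul]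

/-- The Hecke operator `T_ℓ` on `W`. -/
def heckeW (ℓ : Nat.Primes) : Module.End 𝔽 (WW N p 𝔽) := (heckeTors N p ℓ).baseChange 𝔽

theorem galW_apply (σ : Γ) : galW N p 𝔽 σ = (galTors N p σ).baseChange 𝔽 := rfl

variable {N p}

theorem galTors_comm_heckeTors (hcomm : GaloisHeckeComm N) (σ : Γ) (ℓ : Nat.Primes) :
    galTors N p σ * heckeTors N p ℓ = heckeTors N p ℓ * galTors N p σ := by
  ext x
  show ((galTors N p σ (heckeTors N p ℓ x) : Jtors N p) : JZero N) =
    ((heckeTors N p ℓ (galTors N p σ x) : Jtors N p) : JZero N)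
  rw [coe_galTors_apply, coe_heckeTors_apply, coe_heckeTors_apply, coe_galTors_apply]
  exact (hcomm ℓ σ _).symm

variable {𝔽}

theorem galW_comm_heckeW (hcomm : GaloisHeckeComm N) (σ : Γ) (ℓ : Nat.Primes) :
    galW N p 𝔽 σ * heckeW N p 𝔽 ℓ = heckeW N p 𝔽 ℓ * galW N p 𝔽 σ := by
  rw [galW_apply, heckeW, ← LinearMap.baseChange_mul, ← LinearMap.baseChange_mul,
    galTors_comm_heckeTors hcomm]

variable (N p 𝔽)

/-- The eigenspace of the system of eigenvalues `lam` (for the `T_ℓ`, `ℓ ∤ N`). -/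
def eigenSub (lam : Nat.Primes → 𝔽) : Submodule 𝔽 (WW N p 𝔽) :=
  ⨅ (ℓ : Nat.Primes) (_ : ¬ (ℓ : ℕ) ∣ N), LinearMap.ker (heckeW N p 𝔽 ℓ - lam ℓ • 1)

variable {N p 𝔽}

theorem mem_eigenSub_iff (lam : Nat.Primes → 𝔽) (v : WW N p 𝔽) :
    v ∈ eigenSub N p 𝔽 lam ↔ ∀ ℓ : Nat.Primes, ¬ (ℓ : ℕ) ∣ N → heckeW N p 𝔽 ℓ v = lam ℓ • v := by
  simp only [eigenSub, Submodule.mem_iInf, LinearMap.mem_ker, LinearMap.sub_apply,
    LinearMap.smul_apply, Module.End.one_apply, sub_eq_zero]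

theorem galW_mem_eigenSub (hcomm : GaloisHeckeComm N) (lam : Nat.Primes → 𝔽) (σ : Γ)
    {v : WW N p 𝔽} (hv : v ∈ eigenSub N p 𝔽 lam) : galW N p 𝔽 σ v ∈ eigenSub N p 𝔽 lam := by
  rw [mem_eigenSub_iff] at hv ⊢
  intro ℓ hℓ
  have h := congrArg (fun f : Module.End 𝔽 (WW N p 𝔽) => f v) (galW_comm_heckeW (𝔽 := 𝔽) hcomm σ ℓ)
  simp only [Module.End.mul_apply] at h
  rw [← h, hv ℓ hℓ, map_smul]

theorem eigenSub_ne_bot_of_occurs (lam : Nat.Primes → 𝔽) (h : Occurs N p 𝔽 lam) :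
    eigenSub N p 𝔽 lam ≠ ⊥ := by
  obtain ⟨v, hv0, hv⟩ := h
  intro hbot
  apply hv0
  have : v ∈ eigenSub N p 𝔽 lam := (mem_eigenSub_iff lam v).mpr hv
  rw [hbot] at this
  exact (Submodule.mem_bot 𝔽).mp this

/-- The Galois representation on the eigenspace. -/
def galE (hcomm : GaloisHeckeComm N) (lam : Nat.Primes → 𝔽) :
    Γ →* Module.End 𝔽 (eigenSub N p 𝔽 lam) where
  toFun σ := (galW N p 𝔽 σ).restrict fun _ hv => galW_mem_eigenSub hcomm lam σ hv
  map_one' := by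
    ext v
    simp [LinearMap.restrict_apply]
  map_mul' σ τ := by
    ext v
    simp [LinearMap.restrict_apply, map_mul]

@[simp]
theorem coe_galE_apply (hcomm : GaloisHeckeComm N) (lam : Nat.Primes → 𝔽) (σ : Γ)
    (v : eigenSub N p 𝔽 lam) :
    ((galE hcomm lam σ v : eigenSub N p 𝔽 lam) : WW N p 𝔽) = galW N p 𝔽 σ v := rfl

/-! ### Triviality and the Eichler–Shimura relation on the eigenspace -/

theorem galTors_eq_one_of_forall (σ : Γ) (h : ∀ x : JZero N, x ∈ Jtors N p → σ • x = x) :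
    galTors N p σ = 1 := by
  ext x
  show ((galTors N p σ x : Jtors N p) : JZero N) = x
  rw [coe_galTors_apply]
  exact h x x.2

theorem galW_eq_one_of_forall (σ : Γ) (h : ∀ x : JZero N, x ∈ Jtors N p → σ • x = x) :
    galW N p 𝔽 σ = 1 := by
  rw [galW_apply, galTors_eq_one_of_forall σ h, LinearMap.baseChange_one]

theorem galE_eq_one_of_forall (hcomm : GaloisHeckeComm N) (lam : Nat.Primes → 𝔽) (σ : Γ)
    (h : ∀ x : JZero N, x ∈ Jtors N p → σ • x = x) : galE (p := p) hcomm lam σ = 1 := by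
  ext v
  rw [coe_galE_apply, galW_eq_one_of_forall σ h]
  rfl

/-- The Eichler–Shimura relation on `J_0(N)[p]` from the core. -/
theorem galTors_quadratic [hp : Fact p.Prime] {ℓ : ℕ} (hℓ : ℓ.Prime) (hℓp : ℓ ≠ p)
    (A : ValuationSubring Qbar) (hcore : Core.ESOnTorsion N ℓ hℓ A) (σ : Γ)
    (hσ : A.IsFrobeniusAt σ ℓ) :
    galTors N p σ * galTors N p σ - heckeTors N p ⟨ℓ, hℓ⟩ * galTors N p σ
      + (ℓ : ZMod p) • (1 : Module.End (ZMod p) (Jtors N p)) = 0 := by
  have hℓp' : ¬ ℓ ∣ p := fun h => hℓp ((Nat.prime_dvd_prime_iff_eq hℓ hp.out).mp h)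
  ext x
  have hx : p • (x : JZero N) = 0 := (mem_Jtors_iff N p _).mp x.2
  have h := (hcore p hℓp' (x : JZero N) hx).2 σ hσ
  simp only [LinearMap.add_apply, LinearMap.sub_apply, Module.End.mul_apply,
    LinearMap.smul_apply, Module.End.one_apply, LinearMap.zero_apply, AddSubgroup.coe_add,
    AddSubgroup.coe_sub, ZeroMemClass.coe_zero]
  rw [coe_galTors_apply, coe_galTors_apply, coe_heckeTors_apply, coe_galTors_apply,
    Nat.cast_smul_eq_nsmul (ZMod p) ℓ x, AddSubgroupClass.coe_nsmul]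
  exact h

theorem galW_quadratic [hp : Fact p.Prime] {ℓ : ℕ} (hℓ : ℓ.Prime) (hℓp : ℓ ≠ p)
    (A : ValuationSubring Qbar) (hcore : Core.ESOnTorsion N ℓ hℓ A) (σ : Γ)
    (hσ : A.IsFrobeniusAt σ ℓ) :
    galW N p 𝔽 σ * galW N p 𝔽 σ - heckeW N p 𝔽 ⟨ℓ, hℓ⟩ * galW N p 𝔽 σ
      + (ℓ : 𝔽) • (1 : Module.End 𝔽 (WW N p 𝔽)) = 0 := by
  have h := congrArg (Module.End.baseChangeHom (ZMod p) 𝔽 (Jtors N p))
    (galTors_quadratic hℓ hℓp A hcore σ hσ)
  rw [map_zero, map_add, map_sub, map_mul, map_mul, map_smul, map_one] at h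
  rw [galW_apply, heckeW]
  have e : ((ℓ : ZMod p) • (1 : Module.End 𝔽 (WW N p 𝔽))) = (ℓ : 𝔽) • 1 := by
    rw [← algebraMap_smul 𝔽 ((ℓ : ℕ) : ZMod p) (1 : Module.End 𝔽 (WW N p 𝔽)), map_natCast]
  rw [← e]
  exact h

/-- **The Eichler–Shimura relation on the eigenspace**: for a Frobenius element `σ` at `ℓ ∤ N p`,
`ρ(σ)² - λ_ℓ ρ(σ) + ℓ = 0`. -/
theorem galE_quadratic [hp : Fact p.Prime] (hcomm : GaloisHeckeComm N) (lam : Nat.Primes → 𝔽)
    {ℓ : ℕ} (hℓ : ℓ.Prime) (hℓN : ¬ ℓ ∣ N) (hℓp : ℓ ≠ p)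
    (A : ValuationSubring Qbar) (hcore : Core.ESOnTorsion N ℓ hℓ A) (σ : Γ)
    (hσ : A.IsFrobeniusAt σ ℓ) (v : eigenSub N p 𝔽 lam) :
    galE (p := p) hcomm lam σ (galE (p := p) hcomm lam σ v)
      - lam ⟨ℓ, hℓ⟩ • galE (p := p) hcomm lam σ v + (ℓ : 𝔽) • v = 0 := by
  have h := congrArg (fun f : Module.End 𝔽 (WW N p 𝔽) => f (v : WW N p 𝔽))
    (galW_quadratic (𝔽 := 𝔽) hℓ hℓp A hcore σ hσ)
  simp only [LinearMap.add_apply, LinearMap.sub_apply, Module.End.mul_apply,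
    LinearMap.smul_apply, Module.End.one_apply, LinearMap.zero_apply] at h
  have hmem : galW N p 𝔽 σ (v : WW N p 𝔽) ∈ eigenSub N p 𝔽 lam :=
    galW_mem_eigenSub hcomm lam σ v.2
  rw [(mem_eigenSub_iff lam _).mp hmem ⟨ℓ, hℓ⟩ hℓN] at h
  apply Subtype.ext
  simpa using h

end TensorRep

end Fermat.Agent.N4F.Res
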