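/-
N4-FULL, row G2: the S29 ASSEMBLY.

From the interface statements (`Interface.lean`) to a 2-dimensional residual representation with
the prescribed characteristic polynomials of Frobenius elements, unramified outside `N p`, over an
ARBITRARY field of characteristic `p` in which the eigensystem occurs.

Inputs used: `N4/FrobDensity/Dickson.lean` (helper28: from Frobenius elements to all elements),
`N4F/G/ResidualGalois.lean` (helper4: the involution trick over any field of characteristic `p`).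
-/
import Mathlib
import Fermat.Agent.N4F.Res.TensorRep
import Fermat.Agent.N4F.Res.CycloChar
import Fermat.Agent.N4F.G.ResidualGalois
import Fermat.Agent.N4.FrobDensity.Dickson

set_option autoImplicit false

open ModularCurve AlgebraicCurve Polynomial
open scoped TensorProduct

noncomputable section

namespace Fermat.Agent.N4F.Res

local notation "Qbar" => AlgebraicClosure ℚ
local notation "Γ" => (AlgebraicClosure ℚ ≃ₐ[ℚ] AlgebraicClosure ℚ)

local instance isAlgebraicQbar_RA : Algebra.IsAlgebraic ℚ (AlgebraicClosure ℚ) :=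
  AlgebraicClosure.isAlgebraic ℚ
local instance isAlgClosureQbar_RA : IsAlgClosure ℚ (AlgebraicClosure ℚ) :=
  ⟨inferInstance, inferInstance⟩
local instance normalQbar_RA : Normal ℚ (AlgebraicClosure ℚ) :=
  IsAlgClosure.normal ℚ (AlgebraicClosure ℚ)

/-! ### Finite level -/

section Level

variable {N : ℕ} [NeZero N]

/-- A finite extension of `ℚ` over which all points of a finite torsion subgroup are fixed. -/
theorem exists_level_of_finite (hopen : OpenStabilizers N) (n : ℕ) (hfin : Finite (Jtors N n)) :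
    ∃ L : IntermediateField ℚ Qbar, FiniteDimensional ℚ L ∧
      ∀ σ : Γ, (∀ y ∈ L, σ y = y) → ∀ x : JZero N, x ∈ Jtors N n → σ • x = x := by
  classical
  choose Lx hLx1 hLx2 using fun x : Jtors N n => hopen (x : JZero N)
  haveI : ∀ x, FiniteDimensional ℚ (Lx x) := hLx1
  refine ⟨⨆ x, Lx x, IntermediateField.finiteDimensional_iSup_of_finite, ?_⟩
  intro σ hσ x hx
  refine hLx2 ⟨x, hx⟩ σ fun y hy => hσ y ?_
  exact (le_iSup Lx ⟨x, hx⟩ : Lx ⟨x, hx⟩ ≤ ⨆ x, Lx x) hy

/-- Every finite extension of `ℚ` inside `ℚ̄` is contained in a finite NORMAL one. -/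
theorem exists_normal_level (L : IntermediateField ℚ Qbar) [FiniteDimensional ℚ L] :
    ∃ L' : IntermediateField ℚ Qbar, FiniteDimensional ℚ L' ∧ Normal ℚ L' ∧ L ≤ L' :=
  ⟨IntermediateField.normalClosure ℚ L Qbar, normalClosure.is_finiteDimensional ℚ L Qbar,
    normalClosure.normal ℚ L Qbar, IntermediateField.le_normalClosure L⟩

/-- An automorphism with trivial restriction to a normal subextension fixes it pointwise. -/
theorem fixes_of_restrictNormalHom_eq_one (L : IntermediateField ℚ Qbar) [Normal ℚ L] {γ : Γ}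
    (h : AlgEquiv.restrictNormalHom L γ = 1) : ∀ y ∈ L, γ y = y := by
  intro y hy
  have h1 := AlgEquiv.restrictNormal_commutes γ L ⟨y, hy⟩
  have h2 : γ.restrictNormal L = 1 := h
  rw [h2] at h1
  exact h1.symm

end Level

/-! ### The eigenspace as a type of its own

Instance search on `Module.End 𝔽 ↥(eigenSub N p 𝔽 lam)` fails (the additive group structure of a
submodule of a tensor product is not found inside unification), so we wrap the eigenspace. -/

section Wrapper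

variable (N : ℕ) [NeZero N] (p : ℕ) (𝔽 : Type) [Field 𝔽] [Algebra (ZMod p) 𝔽]

/-- The eigenspace of `lam` in `𝔽 ⊗ J_0(N)[p]`, as a type. -/
def EE (lam : Nat.Primes → 𝔽) : Type := ↥(eigenSub N p 𝔽 lam)

instance instAddCommGroupEE (lam : Nat.Primes → 𝔽) : AddCommGroup (EE N p 𝔽 lam) :=
  inferInstanceAs (AddCommGroup ↥(eigenSub N p 𝔽 lam))

instance instModuleEE (lam : Nat.Primes → 𝔽) : Module 𝔽 (EE N p 𝔽 lam) :=
  inferInstanceAs (Module 𝔽 ↥(eigenSub N p 𝔽 lam))

variable {N p 𝔽}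

theorem finiteDimensional_EE (hfin : Finite (Jtors N p)) (lam : Nat.Primes → 𝔽) :
    FiniteDimensional 𝔽 (EE N p 𝔽 lam) := by
  haveI : Module.Finite (ZMod p) (Jtors N p) := Module.Finite.of_finite
  haveI : Module.Finite 𝔽 (WW N p 𝔽) := Module.Finite.base_change (ZMod p) 𝔽 (Jtors N p)
  exact inferInstanceAs (FiniteDimensional 𝔽 ↥(eigenSub N p 𝔽 lam))

theorem nontrivial_EE (lam : Nat.Primes → 𝔽) (h : Occurs N p 𝔽 lam) :
    Nontrivial (EE N p 𝔽 lam) :=
  Submodule.nontrivial_iff_ne_bot.mpr (eigenSub_ne_bot_of_occurs lam h)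

/-- The Galois representation on the eigenspace. -/
def galEE (hcomm : GaloisHeckeComm N) (lam : Nat.Primes → 𝔽) :
    Γ →* Module.End 𝔽 (EE N p 𝔽 lam) := galE hcomm lam

theorem galEE_eq_one_of_forall (hcomm : GaloisHeckeComm N) (lam : Nat.Primes → 𝔽) (σ : Γ)
    (h : ∀ x : JZero N, x ∈ Jtors N p → σ • x = x) : galEE (p := p) hcomm lam σ = 1 :=
  galE_eq_one_of_forall hcomm lam σ h

/-- **The Eichler–Shimura relation on the eigenspace**, ring form. -/
theorem galEE_quadratic [hp : Fact p.Prime] (hcomm : GaloisHeckeComm N) (lam : Nat.Primes → 𝔽)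
    {ℓ : ℕ} (hℓ : ℓ.Prime) (hℓN : ¬ ℓ ∣ N) (hℓp : ℓ ≠ p)
    (A : ValuationSubring Qbar) (hcore : Core.ESOnTorsion N ℓ hℓ A) (σ : Γ)
    (hσ : A.IsFrobeniusAt σ ℓ) :
    galEE (p := p) hcomm lam σ * galEE (p := p) hcomm lam σ
      - lam ⟨ℓ, hℓ⟩ • galEE (p := p) hcomm lam σ
      + (ℓ : 𝔽) • (1 : Module.End 𝔽 (EE N p 𝔽 lam)) = 0 := by
  apply LinearMap.ext
  intro v
  exact galE_quadratic hcomm lam hℓ hℓN hℓp A hcore σ hσ v

end Wrapper

/-! ### The main construction -/

section Main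

variable {N : ℕ} [NeZero N] {p : ℕ} {𝔽 : Type} [Field 𝔽] [Algebra (ZMod p) 𝔽]

/-- The mod `p` cyclotomic character factors through a finite level. -/
theorem chiF_factorsThroughFiniteLevel [hp : Fact p.Prime] :
    GaloisFactorsThroughFiniteLevel (chiF p 𝔽) := by
  obtain ⟨ζ, hζ⟩ := exists_isPrimitiveRoot_Qbar p
  have hint : IsIntegral ℚ ζ := (Algebra.IsAlgebraic.isAlgebraic (R := ℚ) ζ).isIntegral
  refine ⟨IntermediateField.adjoin ℚ {ζ}, IntermediateField.adjoin.finiteDimensional hint,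
    fun σ hσ => chiF_eq_one_of_fix hζ (hσ ζ (IntermediateField.mem_adjoin_simple_self ℚ ζ))⟩

/-- The representation on the eigenspace factors through a finite level. -/
theorem galEE_factorsThroughFiniteLevel (hopen : OpenStabilizers N) (hfin : Finite (Jtors N p))
    (hcomm : GaloisHeckeComm N) (lam : Nat.Primes → 𝔽) :
    GaloisFactorsThroughFiniteLevel (galEE (p := p) hcomm lam) := by
  obtain ⟨L, hL, hfix⟩ := exists_level_of_finite hopen p hfin
  exact ⟨L, hL, fun σ hσ => galEE_eq_one_of_forall hcomm lam σ (hfix σ hσ)⟩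

/-- **The operator identity for every element of the Galois group**: `ρ(g) + χ(g) ρ(g)⁻¹` is a
scalar. -/
theorem exists_scalar_galEE [hp : Fact p.Prime] (hopen : OpenStabilizers N)
    (hfin : Finite (Jtors N p)) (hcomm : GaloisHeckeComm N) (hcore : ESOnTorsionAll N)
    (lam : Nat.Primes → 𝔽) (g : Γ) :
    ∃ s : 𝔽, galEE (p := p) hcomm lam g
        + ((chiF p 𝔽 g : 𝔽ˣ) : 𝔽) • galEE (p := p) hcomm lam g⁻¹
      = s • (1 : Module.End 𝔽 (EE N p 𝔽 lam)) := by
  obtain ⟨L₁, hL₁, hρ⟩ := galEE_factorsThroughFiniteLevel hopen hfin hcomm lam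
  obtain ⟨L₂, hL₂, hχ⟩ := chiF_factorsThroughFiniteLevel (p := p) (𝔽 := 𝔽)
  haveI : FiniteDimensional ℚ ↥(L₁ ⊔ L₂) := IntermediateField.finiteDimensional_sup L₁ L₂
  obtain ⟨L, hL, hLn, hle⟩ := exists_normal_level (L₁ ⊔ L₂)
  have hpos : N * p ≠ 0 := Nat.mul_ne_zero (NeZero.ne N) hp.out.ne_zero
  refine Fermat.Agent.N4.FrobDensity.exists_scalar_of_frobenius L
    (galEE (p := p) hcomm lam) (chiF p 𝔽) ?_ ?_ (N * p).primeFactors ?_ g
  · intro γ hγ
    have hfix := fixes_of_restrictNormalHom_eq_one L hγ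
    exact hρ γ fun x hx => hfix x (hle ((le_sup_left : L₁ ≤ L₁ ⊔ L₂) hx))
  · intro γ hγ
    have hfix := fixes_of_restrictNormalHom_eq_one L hγ
    exact hχ γ fun x hx => hfix x (hle ((le_sup_right : L₂ ≤ L₁ ⊔ L₂) hx))
  · intro l hl hlT A hA φ hφ
    have hndvd : ¬ l ∣ N * p := fun h => hlT (Nat.mem_primeFactors.mpr ⟨hl, h, hpos⟩)
    have hlN : ¬ l ∣ N := fun h => hndvd (Dvd.dvd.mul_right h p)
    have hlp : l ≠ p := fun h => hndvd (h ▸ Dvd.intro_left N rfl)
    refine ⟨lam ⟨l, hl⟩, ?_⟩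
    rw [chiF_of_isFrobeniusAt A hl hA hlp hφ]
    exact galEE_quadratic hcomm lam hl hlN hlp A (hcore l hl hlN A hA) φ hφ

/-- **Row G2, main theorem.** If the eigensystem `lam` occurs in `𝔽 ⊗ J_0(N)[p]` (`𝔽` ANY field
of characteristic `p`), there is a two-dimensional residual Galois representation over `𝔽`,
unramified outside `N p`, with characteristic polynomial `X² - lam_ℓ X + ℓ` at every Frobenius
element at a prime `ℓ ∤ N p`. -/
theorem exists_residualGaloisRep_of_occurs [hp : Fact p.Prime] (hopen : OpenStabilizers N)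
    (hfin : Finite (Jtors N p)) (hcomm : GaloisHeckeComm N) (hcore : ESOnTorsionAll N)
    (lam : Nat.Primes → 𝔽) (hocc : Occurs N p 𝔽 lam) :
    ∃ r : ResidualGaloisRep 𝔽,
      (∀ (ℓ : ℕ) (hℓ : ℓ.Prime), ¬ ℓ ∣ N → ℓ ≠ p →
        ∀ A : ValuationSubring Qbar, A.LiesOverPrime ℓ →
          ∀ σ : Γ, A.IsFrobeniusAt σ ℓ →
            LinearMap.charpoly (r.ρ σ) = X ^ 2 - C (lam ⟨ℓ, hℓ⟩) * X + C (ℓ : 𝔽)) ∧
      ∀ ℓ : ℕ, ℓ.Prime → ¬ ℓ ∣ N → ℓ ≠ p → r.IsUnramifiedAt ℓ := by
  haveI : CharP 𝔽 p :=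
    charP_of_injective_algebraMap (algebraMap (ZMod p) 𝔽).injective p
  haveI : FiniteDimensional 𝔽 (EE N p 𝔽 lam) := finiteDimensional_EE hfin lam
  haveI : Nontrivial (EE N p 𝔽 lam) := nontrivial_EE lam hocc
  choose s hs using exists_scalar_galEE (𝔽 := 𝔽) hopen hfin hcomm hcore lam
  obtain ⟨r, hcp, hunr⟩ :=
    Fermat.Agent.N4F.G.ResidualGalois.exists_residualGaloisRep_unramified p
      (galEE (p := p) hcomm lam) (galEE_factorsThroughFiniteLevel hopen hfin hcomm lam)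
      (chiF p 𝔽) chiF_factorsThroughFiniteLevel s hs
  refine ⟨r, ?_, ?_⟩
  · intro ℓ hℓ hℓN hℓp A hA σ hσ
    have hχ : ((chiF p 𝔽 σ : 𝔽ˣ) : 𝔽) = (ℓ : 𝔽) := chiF_of_isFrobeniusAt A hℓ hA hℓp hσ
    have hq := galEE_quadratic hcomm lam hℓ hℓN hℓp A (hcore ℓ hℓ hℓN A hA) σ hσ
    -- `s σ = lam ℓ`
    have hsσ : s σ = lam ⟨ℓ, hℓ⟩ := by
      set ρ := galEE (p := p) (𝔽 := 𝔽) hcomm lam with hρdef
      have h1 := congrArg (· * ρ σ) (hs σ)
      simp only [add_mul, smul_mul_assoc, one_mul] at h1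
      rw [← map_mul ρ σ⁻¹ σ, inv_mul_cancel, map_one, hχ] at h1
      have h2 : (s σ - lam ⟨ℓ, hℓ⟩) • ρ σ = 0 := by
        rw [sub_smul, ← h1, ← hq]
        abel
      have h3 := congrArg (· * ρ σ⁻¹) h2
      simp only [smul_mul_assoc, zero_mul] at h3
      rw [← map_mul ρ σ σ⁻¹, mul_inv_cancel, map_one] at h3
      obtain ⟨v, hv⟩ := exists_ne (0 : EE N p 𝔽 lam)
      have h4 := congrArg (fun f : Module.End 𝔽 (EE N p 𝔽 lam) => f v) h3
      simp only [LinearMap.smul_apply, Module.End.one_apply, LinearMap.zero_apply] at h4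
      rcases smul_eq_zero.mp h4 with h5 | h5
      · exact sub_eq_zero.mp h5
      · exact absurd h5 hv
    rw [hcp σ, hsσ, hχ]
  · intro ℓ hℓ hℓN hℓp
    apply hunr ℓ
    intro A hA σ hσ
    have hℓp' : ¬ ℓ ∣ p := fun h => hℓp ((Nat.prime_dvd_prime_iff_eq hℓ hp.out).mp h)
    refine ⟨galEE_eq_one_of_forall hcomm lam σ fun x hx => ?_, chiF_of_mem_inertia A hℓ hA hℓp hσ⟩
    exact (hcore ℓ hℓ hℓN A hA p hℓp' x ((mem_Jtors_iff N p x).mp hx)).1 σ hσ

end Main

end Fermat.Agent.N4F.Res
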