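/-
N4-FULL, row G2 (end): the frozen statement S29 from the three remaining inputs
`TorsionFinite N` (block F), `ESOnTorsionAll N` (S37 path: from `ESCoreAll N` or from the torsion
form `ESCoreTorsAll N`), `EigenformOccurs hg` (block F).
The inputs `OpenStabilizers N` (Cont, helper21) and `GaloisHeckeComm N` (A2, helper26) are
discharged here.
-/
import Mathlib
import Fermat.Agent.N4F.Res.Assembly
import Fermat.Agent.N4F.Continuity
import Fermat.Agent.N4F.A.GaloisHecke

set_option autoImplicit false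

open ModularCurve AlgebraicCurve Polynomial CuspForm
open scoped TensorProduct

noncomputable section

namespace Fermat.Agent.N4F.Res

local notation "Qbar" => AlgebraicClosure ℚ
local notation "Γ" => (AlgebraicClosure ℚ ≃ₐ[ℚ] AlgebraicClosure ℚ)

/-- **(Cont)**, proved by helper21. -/
theorem openStabilizers (N : ℕ) [NeZero N] : OpenStabilizers N :=
  fun x => Fermat.Agent.N4F.Continuity.exists_fixing N x

/-- **(A2)**, proved by helper26. -/
theorem galoisHeckeComm (N : ℕ) [NeZero N] : GaloisHeckeComm N :=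
  fun ℓ σ x => Fermat.Agent.N4F.A.GaloisHecke.galois_hecke_comm N ℓ σ x

/-- The trivial two-dimensional residual representation (used for the degenerate level `0`). -/
def trivialResidualGaloisRep (k : Type) [Field k] : ResidualGaloisRep k where
  V := Fin 2 → k
  finrank_eq := by rw [Module.finrank_fin_fun]
  ρ := 1
  factorsThroughFiniteLevel := ⟨⊥, inferInstance, fun _ _ => rfl⟩

/-- The three inputs that are still open, for a level `N ≥ 1`. -/
structure Inputs (N : ℕ) [NeZero N] : Prop where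
  torsionFinite : TorsionFinite N
  esOnTorsionAll : ESOnTorsionAll N
  eigenformOccurs : ∀ {g : CuspForm (CongruenceSubgroup.Gamma0 N) 2}
    (hg : g.IsNormalizedEigenform), EigenformOccurs N hg

/-- **S29 for a level `N ≥ 1`, from the inputs.** -/
theorem exists_residualGaloisRep_isAttachedTo_of_inputs {N : ℕ} [NeZero N] (H : Inputs N)
    {g : CuspForm (CongruenceSubgroup.Gamma0 N) 2} (hg : g.IsNormalizedEigenform)
    {p : ℕ} (hp : p.Prime) {k : Type} [Field k] [CharP k p]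
    (φ : integralClosure ℤ ℂ →+* k) :
    ∃ ρ : ResidualGaloisRep k, ρ.IsAttachedTo g φ ∧
      ∀ ℓ : ℕ, ℓ.Prime → ¬ ℓ ∣ N * p → ρ.IsUnramifiedAt ℓ := by
  letI : Algebra (ZMod p) k := ZMod.algebra k p
  haveI : Fact p.Prime := ⟨hp⟩
  obtain ⟨a, ha, hocc⟩ := H.eigenformOccurs hg
  obtain ⟨r, hcp, hunr⟩ := exists_residualGaloisRep_of_occurs (openStabilizers N)
    (H.torsionFinite p hp.pos) (galoisHeckeComm N) H.esOnTorsionAll (fun ℓ => φ (a ℓ))
    (hocc p k φ)
  refine ⟨r, ?_, ?_⟩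
  · intro ℓ hℓ hℓN hℓk A hA σ hσ
    have hℓp : ℓ ≠ p := by
      rintro rfl
      exact hℓk (CharP.cast_eq_zero k ℓ)
    exact ⟨a ⟨ℓ, hℓ⟩, ha ⟨ℓ, hℓ⟩ hℓN, hcp ℓ hℓ hℓN hℓp A hA σ hσ⟩
  · intro ℓ hℓ hℓNp
    have hℓN : ¬ ℓ ∣ N := fun h => hℓNp (Dvd.dvd.mul_right h p)
    have hℓp : ℓ ≠ p := fun h => hℓNp (h ▸ Dvd.intro_left N rfl)
    exact hunr ℓ hℓ hℓN hℓp

/-- **The frozen statement S29 from the inputs at all levels `N ≥ 1`.** -/
theorem s29_of_inputs (H : ∀ (N : ℕ) [NeZero N], Inputs N)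
    {N : ℕ} {g : CuspForm (CongruenceSubgroup.Gamma0 N) 2} (hg : g.IsNormalizedEigenform)
    {p : ℕ} (hp : p.Prime) {k : Type} [Field k] [CharP k p]
    (φ : integralClosure ℤ ℂ →+* k) :
    ∃ ρ : ResidualGaloisRep k, ρ.IsAttachedTo g φ ∧
      ∀ ℓ : ℕ, ℓ.Prime → ¬ ℓ ∣ N * p → ρ.IsUnramifiedAt ℓ := by
  rcases Nat.eq_zero_or_pos N with hN | hN
  · subst hN
    refine ⟨trivialResidualGaloisRep k, ?_, ?_⟩
    · intro ℓ _ hℓN
      exact absurd (dvd_zero ℓ) hℓN
    · intro ℓ _ hℓNp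
      exact absurd (by rw [zero_mul]; exact dvd_zero ℓ) hℓNp
  · haveI : NeZero N := ⟨hN.ne'⟩
    exact exists_residualGaloisRep_isAttachedTo_of_inputs (H N) hg hp φ

end Fermat.Agent.N4F.Res
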