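/-
N4-FULL: `Res.Inputs N` (the hypothesis of `s29_of_inputs` / `s42_of_inputs`) from
* block F: `TorsionFinite N`, `EigenformOccurs N hg`;
* blocks C + E + S18: `ESAssembly.TorsionPackage N ℓ hℓ A` at every `A` over every `ℓ ∤ N`.
-/
import Mathlib
import Fermat.Agent.N4F.Res.S29Cond
import Fermat.Agent.N4F.ESAssembly

set_option autoImplicit false

open ModularCurve AlgebraicCurve

namespace Fermat.Agent.N4F.Res

local notation "Qbar" => AlgebraicClosure ℚ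

theorem esOnTorsionAll_of_packages (N : ℕ) [NeZero N]
    (H : ∀ (ℓ : ℕ) (hℓ : ℓ.Prime), ¬ ℓ ∣ N → ∀ A : ValuationSubring Qbar, A.LiesOverPrime ℓ →
      ESAssembly.TorsionPackage N ℓ hℓ A) : ESOnTorsionAll N :=
  fun ℓ hℓ hℓN A hA => ESAssembly.esOnTorsion_of_torsionPackage N hℓ hA (H ℓ hℓ hℓN A hA)

theorem inputs_of (N : ℕ) [NeZero N] (hfin : TorsionFinite N)
    (hocc : ∀ {g : CuspForm (CongruenceSubgroup.Gamma0 N) 2} (hg : g.IsNormalizedEigenform),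
      EigenformOccurs N hg)
    (H : ∀ (ℓ : ℕ) (hℓ : ℓ.Prime), ¬ ℓ ∣ N → ∀ A : ValuationSubring Qbar, A.LiesOverPrime ℓ →
      ESAssembly.TorsionPackage N ℓ hℓ A) : Inputs N :=
  ⟨hfin, esOnTorsionAll_of_packages N H, hocc⟩

end Fermat.Agent.N4F.Res
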