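/-
N4-FULL, torsion side: the LAST glue before the one-line `S29.lean` / `S42.lean`.

* `mapDomain_eq_of_zsmul_mem_principal`, `reductionPic0Along_eq_of_torsion`,
  `reductionModL_eq_of_torsion` : two place reductions with the prelude's spec induce the SAME map
  on torsion classes; in particular the frozen `reductionModL A N` agrees on torsion with
  `reductionPic0Along r hr hgen` for ANY `r` with the spec.
* `hinj_of_s18Shape` : the frozen-S18-shaped statement gives clause (iv) of `ESCoreTors` for any `r`.
* `CMain N A` (output of block C), `NormRedAll N ℓ hℓ A` (output of E-tors: helper17's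
  `NormReduction`), `S18Shape N ℓ A` (frozen S18 at `(N, ℓ, A)`),
  `torsionPackage_of_blocks : CMain → NormRedAll → S18Shape → ESAssembly.TorsionPackage`.
* `inputs_of_blocks` : `Res.Inputs N` from `KummerPackage N` (block F) and the three block outputs.
-/
import Mathlib
import Fermat.Agent.N4F.Res.InputsGlue
import Fermat.Agent.N4F.E.TorsionCongruenceBar
import Fermat.Agent.N4F.Tors.OutputsFinal

set_option autoImplicit false
set_option linter.unusedSectionVars false

open AlgebraicCurve ModularCurve

namespace Fermat.Agent.N4F.Res.FromBlocks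

section Generic

variable {L : Type*} [Field L] [Algebra ℚ L] {A : ValuationSubring L} {k : Type*} [Field k]
  {π : A →+* k} {N : ℕ}
  {r r' : Place L (laurentBaseChange L (modularFunctionFieldFull N)) →
    Place k (modularFunctionFieldFullC k N)}

/-- Two place reductions with the prelude's spec agree on integral principal divisors. -/
theorem mapDomain_eq_of_mem_integral (hr : IsPlaceReductionAlong A π N r)
    (hr' : IsPlaceReductionAlong A π N r')
    {D : Divisor L (laurentBaseChange L (modularFunctionFieldFull N))}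
    (hD : D ∈ integralPrincipalDivisors A π N) :
    Finsupp.mapDomain r D = Finsupp.mapDomain r' D := by
  obtain ⟨y, hy, hyk, hne, hDy⟩ := hD
  ext Q
  rw [hr.2 y hy hyk hne D hDy Q, hr'.2 y hy hyk hne D hDy Q]

/-- ... hence on every divisor a nonzero multiple of which is principal. -/
theorem mapDomain_eq_of_zsmul_mem_principal (hr : IsPlaceReductionAlong A π N r)
    (hr' : IsPlaceReductionAlong A π N r') (hgen : PrincipalGeneratedByIntegral A π N)
    {D : Divisor L (laurentBaseChange L (modularFunctionFieldFull N))} {m : ℤ} (hm : m ≠ 0)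
    (hD : m • D ∈ Divisor.principal (K := L)
      (F := laurentBaseChange L (modularFunctionFieldFull N))) :
    Finsupp.mapDomain r D = Finsupp.mapDomain r' D := by
  have h := Fermat.Agent.N4F.E.TorsionCongruence.eq_zero_of_zsmul_mem_principal
    (A := A) (π := π) (N := N)
    (Finsupp.mapDomain.addMonoidHom r - Finsupp.mapDomain.addMonoidHom r')
    (fun E hE => by
      rw [AddMonoidHom.sub_apply, Finsupp.mapDomain.addMonoidHom_apply,
        Finsupp.mapDomain.addMonoidHom_apply, mapDomain_eq_of_mem_integral hr hr' hE, sub_self])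
    hgen hm hD
  rw [AddMonoidHom.sub_apply, Finsupp.mapDomain.addMonoidHom_apply,
    Finsupp.mapDomain.addMonoidHom_apply, sub_eq_zero] at h
  exact h

/-- **Two place reductions with the spec induce the same map on torsion classes.** -/
theorem reductionPic0Along_eq_of_torsion (hr : IsPlaceReductionAlong A π N r)
    (hr' : IsPlaceReductionAlong A π N r') (hgen : PrincipalGeneratedByIntegral A π N)
    (x : Pic0 L (laurentBaseChange L (modularFunctionFieldFull N)))
    (hx : ∃ m : ℤ, m ≠ 0 ∧ m • x = 0) :
    reductionPic0Along r hr hgen x = reductionPic0Along r' hr' hgen x := by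
  obtain ⟨m, hm, hmx⟩ := hx
  obtain ⟨D, rfl⟩ := Pic0.mk_surjective x
  have hmD : m • (D : Divisor L (laurentBaseChange L (modularFunctionFieldFull N))) ∈
      Divisor.principal (K := L) (F := laurentBaseChange L (modularFunctionFieldFull N)) := by
    have h1 : Pic0.mk (m • D) = 0 := by
      rw [← hmx]
      exact QuotientAddGroup.mk_zsmul _ D m
    have h2 := (QuotientAddGroup.eq_zero_iff (m • D)).mp h1
    rw [AddSubgroup.mem_addSubgroupOf, AddSubgroup.coe_zsmul] at h2
    exact h2
  rw [reductionPic0Along_mk, reductionPic0Along_mk]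
  refine congrArg Pic0.mk (Subtype.ext ?_)
  rw [coe_reductionDegZeroAlong, coe_reductionDegZeroAlong]
  exact mapDomain_eq_of_zsmul_mem_principal hr hr' hgen hm hmD

/-- **The prelude's total reduction map agrees on torsion with the map of ANY place reduction
with the spec.** -/
theorem reductionAlong_eq_of_torsion (hr : IsPlaceReductionAlong A π N r)
    (hgen : PrincipalGeneratedByIntegral A π N)
    (x : Pic0 L (laurentBaseChange L (modularFunctionFieldFull N)))
    (hx : ∃ m : ℤ, m ≠ 0 ∧ m • x = 0) :
    reductionAlong A π N x = reductionPic0Along r hr hgen x := by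
  have h : ReductionInputsAlong A π N := ⟨r, hr, hgen⟩
  rw [reductionAlong_eq h]
  exact reductionPic0Along_eq_of_torsion h.choose_spec.1 hr hgen x hx

end Generic

section Modular

open Fermat.Agent.N4F.C Fermat.Agent.N4F.C.CoeffAut Fermat.Agent.N4F.C.Galois

local notation "Γ" => (AlgebraicClosure ℚ ≃ₐ[ℚ] AlgebraicClosure ℚ)

variable (N : ℕ) [NeZero N]

/-- The frozen statement S18 at `(N, ℓ, A)`, as a proposition. -/
def S18Shape (ℓ : ℕ) (A : ValuationSubring Qb) : Prop :=
  ∀ (_ : ReductionInputsModL A N) (m : ℕ), ¬ ℓ ∣ m → ∀ z : JZero N, m • z = 0 →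
    reductionModL A N z = 0 → z = 0

variable {N}

/-- **Clause (iv) of `ESCoreTors`** (injectivity of the reduction on prime-to-`ℓ` torsion) for ANY
place reduction with the spec, from the frozen-S18-shaped statement. -/
theorem hinj_of_s18Shape {ℓ : ℕ} {A : ValuationSubring Qb} (h18 : S18Shape N ℓ A)
    {r : Place Qb (Fb N) → Place (Kap A) (Ft A N)} (hr : IsPlaceReductionModL A N r)
    (hgen : PrincipalGeneratedByIntegral A (IsLocalRing.residue A) N) :
    ∀ m : ℕ, ¬ ℓ ∣ m → ∀ x : JZero N, m • x = 0 →
      reductionPic0Along r hr hgen x = 0 → x = 0 := by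
  intro m hm x hmx hx
  have hm0 : m ≠ 0 := fun h0 => hm (h0 ▸ dvd_zero ℓ)
  refine h18 ⟨r, hr, hgen⟩ m hm x hmx ?_
  have htors : ∃ n : ℤ, n ≠ 0 ∧ n • x = 0 :=
    ⟨(m : ℤ), Int.natCast_ne_zero.mpr hm0, by rw [natCast_zsmul]; exact hmx⟩
  have h := reductionAlong_eq_of_torsion (A := A) (π := IsLocalRing.residue A) (N := N)
    hr hgen x htors
  exact h.trans hx

variable (N)

/-- **Output of block C** at a valuation subring `A` of `ℚ̄`: a place reduction with the prelude's
spec ((T2), (T3)) which is equivariant under the decomposition group ((T4)). -/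
def CMain (A : ValuationSubring Qb) : Prop :=
  ∃ (r : Place Qb (Fb N) → Place (Kap A) (Ft A N)) (_ : IsPlaceReductionModL A N r)
    (_ : PrincipalGeneratedByIntegral A (IsLocalRing.residue A) N),
    ∀ (σ : A.decompositionSubgroup ℚ) P,
      r (gal N (σ : Γ) • P) = coeffAut (Kap A) N (resAut ℚ A σ) • r P

/-- **Output of E-tors** (helper17's `NormReduction`) at `(N, ℓ, A)`, for every lift `φ` of the
`ℓ`-power Frobenius of the residue field. -/
def NormRedAll (ℓ : ℕ) (hℓ : ℓ.Prime) (A : ValuationSubring Qb) : Prop :=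
  ∀ φ : Kap A ≃+* Kap A, (∀ x, φ x = x ^ ℓ) →
    haveI : NeZero ℓ := ⟨hℓ.ne_zero⟩
    Fermat.Agent.N4F.E.TorsionCongruence.NormReduction A (IsLocalRing.residue A) N ℓ
      (coeffAut (Kap A) N φ)

variable {N}

set_option synthInstance.maxHeartbeats 400000 in
/-- **`TorsionPackage` from the outputs of blocks C, E-tors and S18.** -/
theorem torsionPackage_of_blocks {ℓ : ℕ} (hℓ : ℓ.Prime) {A : ValuationSubring Qb}
    (hC : CMain N A) (hE : NormRedAll N ℓ hℓ A) (h18 : S18Shape N ℓ A) :
    ESAssembly.TorsionPackage N ℓ hℓ A := by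
  obtain ⟨r, hr, hgen, hT4⟩ := hC
  refine ⟨r, hr, hgen, hT4, fun φ hφ x hx => ?_, hinj_of_s18Shape h18 hr hgen⟩
  exact Fermat.Agent.N4F.E.TorsionCongruenceBar.reductionPic0Along_heckeOperatorBar_of_torsion
    N ℓ hℓ r hr hgen _ (hE φ hφ) x hx

/-- **`Res.Inputs N`** (the hypothesis of `s29_of_inputs` / `s42_of_inputs`) from the outputs of
the four blocks: F (`KummerPackage N`), C (`CMain`), E-tors (`NormRedAll`), S18 (`S18Shape`). -/
theorem inputs_of_blocks (hK : Fermat.Agent.N4F.Tors.Outputs.KummerPackage N)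
    (H : ∀ (ℓ : ℕ) (hℓ : ℓ.Prime), ¬ ℓ ∣ N → ∀ A : ValuationSubring Qb, A.LiesOverPrime ℓ →
      CMain N A ∧ NormRedAll N ℓ hℓ A ∧ S18Shape N ℓ A) : Inputs N :=
  inputs_of N (Fermat.Agent.N4F.Tors.Outputs.torsionFinite N hK)
    (fun hg => Fermat.Agent.N4F.Tors.OutputsFinal.eigenformOccurs N hK hg)
    (fun ℓ hℓ hℓN A hA =>
      torsionPackage_of_blocks hℓ (H ℓ hℓ hℓN A hA).1 (H ℓ hℓ hℓN A hA).2.1
        (H ℓ hℓ hℓN A hA).2.2)

end Modular

end Fermat.Agent.N4F.Res.FromBlocks
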