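/-
N4-FULL, row S42: the frozen statement S42 from the same inputs as S29
(`Inputs N` of `S29Cond.lean` at all levels `N ≥ 1`).

`K := ℤ̄ ⧸ 𝔪`, `ψ` the quotient map, `ρ` from `exists_residualGaloisRep_of_occurs`,
`F` := a finite normal extension containing a level of `ρ` and a level of the `p`-torsion of the
Frey curve.
-/
import Mathlib
import Fermat.Prelude.Def_FreyPackage_EigenformResidualAttachment
import Fermat.Agent.N4F.Res.S29Cond
import Fermat.Agent.S13.FiniteLevel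
import Fermat.Agent.Tors.TorsionModule

set_option autoImplicit false

open ModularCurve AlgebraicCurve Polynomial CuspForm
open WeierstrassCurve WeierstrassCurve.Affine.Point
open scoped TensorProduct WeierstrassCurve.Affine

noncomputable section

namespace Fermat.Agent.N4F.Res

local notation "Qbar" => AlgebraicClosure ℚ
local notation "Γ" => (AlgebraicClosure ℚ ≃ₐ[ℚ] AlgebraicClosure ℚ)

local instance isAlgebraicQbar_RS : Algebra.IsAlgebraic ℚ (AlgebraicClosure ℚ) :=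
  AlgebraicClosure.isAlgebraic ℚ
local instance isAlgClosureQbar_RS : IsAlgClosure ℚ (AlgebraicClosure ℚ) :=
  ⟨inferInstance, inferInstance⟩
local instance normalQbar_RS : Normal ℚ (AlgebraicClosure ℚ) :=
  IsAlgClosure.normal ℚ (AlgebraicClosure ℚ)

/-- Trace and determinant of an endomorphism of a plane from its characteristic polynomial. -/
theorem trace_det_of_charpoly_eq {K V : Type*} [Field K] [AddCommGroup V] [Module K V]
    [Module.Finite K V]
    (hd : Module.finrank K V = 2) (f : Module.End K V) (t d : K)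
    (h : f.charpoly = X ^ 2 - C t * X + C d) :
    LinearMap.trace K V f = t ∧ LinearMap.det f = d := by
  let b := Module.finBasisOfFinrankEq K V hd
  have h1 : f.charpoly = X ^ 2 - C (LinearMap.trace K V f) * X + C (LinearMap.det f) := by
    rw [← LinearMap.charpoly_toMatrix f b, Matrix.charpoly_fin_two,
      ← LinearMap.trace_eq_matrix_trace K b f, LinearMap.det_toMatrix]
  rw [h] at h1
  have c1 := congrArg (fun q : K[X] => q.coeff 1) h1
  have c0 := congrArg (fun q : K[X] => q.coeff 0) h1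
  simp [coeff_X_pow, coeff_X] at c1 c0
  exact ⟨c1.symm, c0.symm⟩

/-- **The frozen statement S42 from the inputs at all levels `N ≥ 1`.** -/
theorem s42_of_inputs (H : ∀ (N : ℕ) [NeZero N], Inputs N) (P : FreyPackage) :
    ∀ M : ℕ, 0 < M → P.EigenformResidualAttachmentAt M := by
  intro M hM g hg 𝔪 h𝔪 hp𝔪
  haveI : NeZero M := ⟨hM.ne'⟩
  haveI : Fact P.p.Prime := ⟨P.pp⟩
  letI : Field (integralClosure ℤ ℂ ⧸ 𝔪) := Ideal.Quotient.field 𝔪
  have hp0 : ((P.p : ℕ) : integralClosure ℤ ℂ ⧸ 𝔪) = 0 := by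
    have : (Ideal.Quotient.mk 𝔪) ((P.p : ℕ) : integralClosure ℤ ℂ) = 0 :=
      Ideal.Quotient.eq_zero_iff_mem.mpr hp𝔪
    rwa [map_natCast] at this
  haveI hchar : CharP (integralClosure ℤ ℂ ⧸ 𝔪) P.p :=
    (CharP.charP_iff_prime_eq_zero P.pp).mpr hp0
  letI : Algebra (ZMod P.p) (integralClosure ℤ ℂ ⧸ 𝔪) := ZMod.algebra _ P.p
  set ψ : integralClosure ℤ ℂ →+* integralClosure ℤ ℂ ⧸ 𝔪 := Ideal.Quotient.mk 𝔪 with hψ
  obtain ⟨a, ha, hocc⟩ := (H M).eigenformOccurs hg
  obtain ⟨r, hcp, -⟩ := exists_residualGaloisRep_of_occurs (openStabilizers M)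
    ((H M).torsionFinite P.p P.hppos) (galoisHeckeComm M) (H M).esOnTorsionAll
    (fun ℓ => ψ (a ℓ)) (hocc P.p _ ψ)
  -- a level of `ρ`
  obtain ⟨L₁, hL₁, hρ⟩ := r.factorsThroughFiniteLevel
  -- a level of `E[p]`
  haveI : Finite (Submodule.torsionBy ℤ (P.freyCurve⁄Qbar).Point P.p) :=
    Fermat.Agent.Tors.finite_torsion (K := Qbar) P.freyCurve P.p P.hp_odd
      (Nat.cast_ne_zero.mpr P.hp0)
  obtain ⟨L₂, hL₂, hE⟩ :=
    Fermat.Agent.S13.FiniteLevel.exists_finite_level_torsion (W := P.freyCurve) P.p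
  -- a common normal level
  haveI : FiniteDimensional ℚ ↥(L₁ ⊔ L₂) := IntermediateField.finiteDimensional_sup L₁ L₂
  obtain ⟨L, hL, hLn, hle⟩ := exists_normal_level (L₁ ⊔ L₂)
  haveI : NumberField ↥L := { to_charZero := inferInstance, to_finiteDimensional := hL }
  haveI : IsGalois ℚ ↥L := ⟨⟩
  refine ⟨integralClosure ℤ ℂ ⧸ 𝔪, inferInstance, inferInstance, r.V, inferInstance,
    inferInstance, r.ρ, ψ, ↥L, inferInstance, inferInstance, inferInstance, inferInstance,
    inferInstance, ?_, r.finrank_eq, ?_, ?_, ?_⟩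
  · intro x hx
    rw [RingHom.mem_ker]
    exact Ideal.Quotient.eq_zero_iff_mem.mpr hx
  · intro σ hσ
    rw [MonoidHom.mem_ker] at hσ
    have hfix := fixes_of_restrictNormalHom_eq_one L hσ
    rw [Subgroup.mem_inf, MonoidHom.mem_ker, MonoidHom.mem_ker]
    refine ⟨?_, hρ σ fun x hx => hfix x (hle ((le_sup_left : L₁ ≤ L₁ ⊔ L₂) hx))⟩
    ext x
    rw [galoisRepModuleEnd_apply]
    exact congrArg Subtype.val
      (hE σ (fun x hx => hfix x (hle ((le_sup_right : L₂ ≤ L₁ ⊔ L₂) hx))) x)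
  · intro ℓ hℓ hℓM hℓp A hA τ hτ
    exact ⟨a ⟨ℓ, hℓ⟩, ha ⟨ℓ, hℓ⟩ hℓM,
      (trace_det_of_charpoly_eq r.finrank_eq (r.ρ τ) _ _ (hcp ℓ hℓ hℓM hℓp A hA τ hτ)).1⟩
  · intro ℓ hℓ hℓM hℓp A hA τ hτ
    exact (trace_det_of_charpoly_eq r.finrank_eq (r.ρ τ) _ _ (hcp ℓ hℓ hℓM hℓp A hA τ hτ)).2

end Fermat.Agent.N4F.Res
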