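/-
N4-FULL: the frozen statements S29 and S42 from the outputs of the four blocks
(F: `KummerPackage`, C: `CMain`, E-tors: `NormRedAll`, S18: `S18Shape`), at all levels.
`Fermat/Agent/S29.lean` and `Fermat/Agent/S42.lean` are these theorems applied to the block theorems.
-/
import Mathlib
import Fermat.Agent.N4F.Res.FromBlocks
import Fermat.Agent.N4F.Res.S42Cond

set_option autoImplicit false

open ModularCurve AlgebraicCurve

namespace Fermat.Agent.N4F.Res.FinalCond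

open Fermat.Agent.N4F.Res.FromBlocks Fermat.Agent.N4F.C

/-- The outputs of blocks F, C, E-tors, S18 at all levels, primes and valuation subrings. -/
structure Blocks : Prop where
  kummer : ∀ (N : ℕ) [NeZero N], Fermat.Agent.N4F.Tors.Outputs.KummerPackage N
  cMain : ∀ (N : ℕ) [NeZero N] (ℓ : ℕ), ℓ.Prime → ¬ ℓ ∣ N →
    ∀ A : ValuationSubring Qb, A.LiesOverPrime ℓ → CMain N A
  normRed : ∀ (N : ℕ) [NeZero N] (ℓ : ℕ) (hℓ : ℓ.Prime), ¬ ℓ ∣ N →
    ∀ A : ValuationSubring Qb, A.LiesOverPrime ℓ → NormRedAll N ℓ hℓ A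
  s18 : ∀ (N : ℕ) [NeZero N] (ℓ : ℕ), ℓ.Prime → ¬ ℓ ∣ N →
    ∀ A : ValuationSubring Qb, A.LiesOverPrime ℓ → S18Shape N ℓ A

theorem Blocks.inputs (B : Blocks) (N : ℕ) [NeZero N] : Inputs N :=
  inputs_of_blocks (B.kummer N) fun ℓ hℓ hℓN A hA =>
    ⟨B.cMain N ℓ hℓ hℓN A hA, B.normRed N ℓ hℓ hℓN A hA, B.s18 N ℓ hℓ hℓN A hA⟩

/-- **Frozen S29 from the block outputs.** -/
theorem s29_of_blocks (B : Blocks)
    {N : ℕ} {g : CuspForm (CongruenceSubgroup.Gamma0 N) 2} (hg : g.IsNormalizedEigenform)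
    {p : ℕ} (hp : p.Prime) {k : Type} [Field k] [CharP k p]
    (φ : integralClosure ℤ ℂ →+* k) :
    ∃ ρ : ResidualGaloisRep k, ρ.IsAttachedTo g φ ∧
      ∀ ℓ : ℕ, ℓ.Prime → ¬ ℓ ∣ N * p → ρ.IsUnramifiedAt ℓ :=
  s29_of_inputs (fun N _ => B.inputs N) hg hp φ

/-- **Frozen S42 from the block outputs.** -/
theorem s42_of_blocks (B : Blocks) (P : FreyPackage) :
    ∀ M : ℕ, 0 < M → P.EigenformResidualAttachmentAt M :=
  s42_of_inputs (fun N _ => B.inputs N) P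

end Fermat.Agent.N4F.Res.FinalCond
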