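/-
N4-FULL: the frozen statement S37 (`SpecializationExists` for `JZero N`) from the outputs of
blocks C + E (FULL divisor form of the Eichler–Shimura congruence, for the SAME place map `r`)
and the landed `Fermat.Agent.S18.result`.

* `CEMain N ℓ hℓ A` : what blocks C (C9: a place reduction `r` with the prelude's spec, equivariant
  under the decomposition group) and E (TheoremEModular: `r_* (T_ℓ D) = Fr • r_* D + ℓ • Fr⁻¹ • r_* D`
  for EVERY divisor `D`) deliver together at a valuation subring `A` over `ℓ ∤ N`.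
* `esCore_of_ceMain` : `CEMain` + S18 ⇒ `Core.ESCore N ℓ hℓ A` (clause (iv) via
  `ReductionTorsion.injective_on_torsion_of_S18`).
* `s37_of_ceMain` : `(∀ N ℓ A, CEMain N ℓ hℓ A) →` frozen S37 VERBATIM.
So `Fermat/Agent/S37.lean` is `s37_of_ceMain (fun N _ ℓ hℓ hℓN A hA => ⟨rCan …, …⟩) N p hcomm`.
-/
import Mathlib
import Fermat.Agent.N4F.ESAssembly
import Fermat.Agent.N4F.ReductionTorsion
import Fermat.Agent.S18

set_option autoImplicit false
set_option synthInstance.maxHeartbeats 400000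
set_option linter.style.haveILetI false

open AlgebraicCurve ModularCurve

namespace Fermat.Agent.N4F.Res.S37Cond

open Fermat.Agent.N4F.C Fermat.Agent.N4F.C.CoeffAut Fermat.Agent.N4F.C.Galois
open Fermat.Agent.N4F.A.LevelMaps Fermat.Agent.N4F.A.HeckeInputs
  Fermat.Agent.N4F.A.HeckeInputsFinal

local notation "Γ" => (AlgebraicClosure ℚ ≃ₐ[ℚ] AlgebraicClosure ℚ)

variable (N : ℕ) [NeZero N]

/-- **Joint output of blocks C and E (full form)** at a valuation subring `A` of `ℚ̄` over a prime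
`ℓ ∤ N`: a place reduction `r` with the prelude's spec ((T2), (T3)), equivariant under the
decomposition group ((T4)), satisfying the Eichler–Shimura congruence in DIVISOR form for every
lift `φ` of the `ℓ`-power Frobenius of the residue field. -/
def CEMain (ℓ : ℕ) (hℓ : ℓ.Prime) (A : ValuationSubring Qb) : Prop :=
  ∃ (r : Place Qb (Fb N) → Place (Kap A) (Ft A N)) (_ : IsPlaceReductionModL A N r)
    (_ : PrincipalGeneratedByIntegral A (IsLocalRing.residue A) N),
    (∀ (σ : A.decompositionSubgroup ℚ) P,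
      r (gal N (σ : Γ) • P) = coeffAut (Kap A) N (resAut ℚ A σ) • r P) ∧
    (∀ φ : Kap A ≃+* Kap A, (∀ x, φ x = x ^ ℓ) →
      haveI : NeZero ℓ := ⟨hℓ.ne_zero⟩
      haveI := hasPrincipalDivisors_bar (N * ℓ)
      ∀ D : Divisor Qb (Fb N),
        Finsupp.mapDomain r
            (heckeDivBar (heckeAlphaBarIntegral N ℓ) (heckeBetaBarIntegral N ℓ) D) =
          coeffAut (Kap A) N φ • Finsupp.mapDomain r D +
            (ℓ : ℤ) • ((coeffAut (Kap A) N φ)⁻¹ • Finsupp.mapDomain r D))

variable {N}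

/-- **`ESCore` from `CEMain` and the landed S18.** -/
theorem esCore_of_ceMain {ℓ : ℕ} (hℓ : ℓ.Prime) (hℓN : ¬ ℓ ∣ N) {A : ValuationSubring Qb}
    (hA : A.LiesOverPrime ℓ) (h : CEMain N ℓ hℓ A) : Core.ESCore N ℓ hℓ A := by
  obtain ⟨r, hr, hgen, hT4, hdiv⟩ := h
  haveI : Fact ℓ.Prime := ⟨hℓ⟩
  refine Fermat.Agent.N4F.ESAssembly.esCore_of_parts N hℓ hA hr hgen hT4 hdiv ?_
  intro m hm x hmx hx
  exact Fermat.Agent.N4F.ReductionTorsion.injective_on_torsion_of_S18 (ℓ := ℓ) hr hgen
    (fun h m hm z hmz hz => Fermat.Agent.S18.result N hℓN A hA h m hm z hmz hz) m hm x hmx hx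

/-- **Frozen S37 from `CEMain` at all levels.**  The conclusion is the frozen statement verbatim. -/
theorem s37_of_ceMain
    (H : ∀ (N : ℕ) [NeZero N] (ℓ : ℕ) (hℓ : ℓ.Prime), ¬ ℓ ∣ N →
      ∀ A : ValuationSubring Qb, A.LiesOverPrime ℓ → CEMain N ℓ hℓ A)
    (N p : ℕ) [NeZero N] (hcomm : ModularCurve.HeckeOperatorsCommuteBar N) :
    letI := ModularCurve.heckeModuleBar N
    ∀ (_ : SMulCommClass (AlgebraicClosure ℚ ≃ₐ[ℚ] AlgebraicClosure ℚ) ModularCurve.HeckeAlg
      (ModularCurve.JZero N)),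
      ModularCurve.SpecializationExists (K := ℚ) (L := AlgebraicClosure ℚ) N p
        (ModularCurve.JZero N) :=
  Fermat.Agent.N4F.Core.specializationExists_of_core N p hcomm
    (fun ℓ hℓ hℓN A hA => esCore_of_ceMain hℓ hℓN hA (H N ℓ hℓ hℓN A hA))

end Fermat.Agent.N4F.Res.S37Cond
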