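/-
N4-FULL (helper26): the frozen statement S37 from the single remaining input of block E, the
level-wise core statement (†β) (`DaggerBetaGlue.BetaTarget`, to be supplied by `E/BetaSide`).

Plugs: block C (`C/Main`: the place reduction `rC`, (T2), (T3), (T4); `C/DegOne`; `C/ChartLevelInst`),
block E (`E/TheoremEFinal.hdiv_rFinal`: Theorem E in divisor form for the SAME place map), and
helper2's `Res/S37Cond` (S18 plugged).
-/
import Mathlib
import Fermat.Agent.N4F.Res.S37Cond
import Fermat.Agent.N4F.E.TheoremEFinal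
import Fermat.Agent.N4F.C.Main
import Fermat.Agent.N4F.C.DegOne
import Fermat.Agent.N4F.C.ChartLevelInst

set_option autoImplicit false
set_option synthInstance.maxHeartbeats 400000
set_option linter.style.haveILetI false

open AlgebraicCurve ModularCurve

namespace Fermat.Agent.N4F.Res.S37FromBeta

open Fermat.Agent.N4F.C Fermat.Agent.N4F.E.DaggerBetaGlue Fermat.Agent.N4F.Res.S37Cond

/-- **`CEMain` at every `(N, ℓ, A)`** from (†β) at all good bases. -/
theorem ceMain_of_betaTarget (hB : BetaTarget) (N : ℕ) [NeZero N] (ℓ : ℕ) (hℓ : ℓ.Prime)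
    (hℓN : ¬ ℓ ∣ N) (A : ValuationSubring Qb) (hA : A.LiesOverPrime ℓ) : CEMain N ℓ hℓ A :=
  haveI : Fact ℓ.Prime := ⟨hℓ⟩
  ⟨Main.rC hℓ hA hℓN,
    Main.isPlaceReductionModL_rC hℓ hA hℓN (DegOne.deg_eq_one_Ft A N)
      (ChartLevelInst.levelHyp A N hℓ hA),
    Main.principalGeneratedByIntegral hℓ hA hℓN,
    Main.rC_galois_smul hℓ hA hℓN,
    Fermat.Agent.N4F.E.TheoremEFinal.hdiv_rFinal hB N hℓ hA hℓN (DegOne.deg_eq_one_Ft A N)⟩

/-- **Frozen S37 from (†β) at all good bases.**  The conclusion is the frozen statement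
verbatim. -/
theorem s37_of_betaTarget (hB : BetaTarget)
    (N p : ℕ) [NeZero N] (hcomm : ModularCurve.HeckeOperatorsCommuteBar N) :
    letI := ModularCurve.heckeModuleBar N
    ∀ (_ : SMulCommClass (AlgebraicClosure ℚ ≃ₐ[ℚ] AlgebraicClosure ℚ) ModularCurve.HeckeAlg
      (ModularCurve.JZero N)),
      ModularCurve.SpecializationExists (K := ℚ) (L := AlgebraicClosure ℚ) N p
        (ModularCurve.JZero N) :=
  s37_of_ceMain (fun N _ ℓ hℓ hℓN A hA => ceMain_of_betaTarget hB N ℓ hℓ hℓN A hA) N p hcomm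

end Fermat.Agent.N4F.Res.S37FromBeta
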