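/-
N4-FULL (helper26): ALL FIVE remaining frozen statements S29, S30, S31, S37, S42 from the single
input (†β) (`DaggerBetaGlue.BetaTarget`).

The FULL divisor form of the Eichler–Shimura congruence (`E/TheoremEFinal`, from (†β) alone) gives
`Core.ESCore` at every good prime (`Res/S37FromBeta` + `Res/S37Cond`), hence `ESOnTorsionAll`, which
is all that S29 / S42 (`Res/S29Cond`, `Res/S42Cond`) and S30 / S31 (`Adic/FinalCondAdic`) consume —
the torsion shortcut ((†α), `E/AlphaSide`) is NOT needed on this route.
-/
import Mathlib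
import Fermat.Agent.N4F.Res.S37FromBeta
import Fermat.Agent.N4F.Res.S29Cond
import Fermat.Agent.N4F.Res.S42Cond
import Fermat.Agent.N4F.Adic.FinalCondAdic
import Fermat.Agent.N4F.Tors.KummerPlug

set_option autoImplicit false
set_option linter.style.haveILetI false

open AlgebraicCurve ModularCurve

namespace Fermat.Agent.N4F.Res.AllFromBeta

open Fermat.Agent.N4F.C Fermat.Agent.N4F.E.DaggerBetaGlue Fermat.Agent.N4F.Res
  Fermat.Agent.N4F.Res.S37Cond Fermat.Agent.N4F.Res.S37FromBeta

/-- **The core statement at every good prime**, from (†β) at all good bases. -/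
theorem esCoreAll_of_betaTarget (hB : BetaTarget) (N : ℕ) [NeZero N] : ESCoreAll N :=
  fun ℓ hℓ hℓN A hA => esCore_of_ceMain hℓ hℓN hA (ceMain_of_betaTarget hB N ℓ hℓ hℓN A hA)

/-- **Eichler–Shimura on torsion at every good prime**, from (†β) at all good bases. -/
theorem esOnTorsionAll_of_betaTarget (hB : BetaTarget) (N : ℕ) [NeZero N] : ESOnTorsionAll N :=
  (esCoreAll_of_betaTarget hB N).esOnTorsionAll

/-- **`Res.Inputs N`** (block F plugged in), from (†β) at all good bases. -/
theorem inputs_of_betaTarget (hB : BetaTarget) (N : ℕ) [NeZero N] : Inputs N :=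
  ⟨Fermat.Agent.N4F.Tors.KummerPlug.torsionFinite N, esOnTorsionAll_of_betaTarget hB N,
    fun hg => Fermat.Agent.N4F.Tors.KummerPlug.eigenformOccurs N hg⟩

end Fermat.Agent.N4F.Res.AllFromBeta
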