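/-
N4-FULL, final glue (helper11): the four block outputs `Res.FinalCond.Blocks` as a theorem,
from the characteristic-polynomial form of (†α) (block E4, `NormFromCharpoly.AlphaCharpolyForm`).

* block F : `Tors.KummerPlug.kummerPackage` (unconditional);
* block C : `cMain` below = `C.Main.cMain_of` + `C.DegOne.deg_eq_one_Ft` +
  `C.ChartLevelInst.levelHyp` (unconditional);
* S18     : the landed `Fermat.Agent.S18.result` (unconditional);
* E-tors  : `E.NormRedFinal.normRed_of_charpolyForm`, the only place where (†α) enters.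

Consequently `Fermat/Agent/S29.lean`, `S30.lean`, `S31.lean`, `S42.lean` are
`FinalCond.s29_of_blocks`, `FinalCondAdic.s30_of_blocks`, `FinalCondAdic.s31_of_blocks`,
`FinalCond.s42_of_blocks` applied to `blocks_of_charpolyForm <AlphaSide theorem>`.
-/
import Mathlib
import Fermat.Agent.N4F.Res.FinalCond
import Fermat.Agent.N4F.Tors.KummerPlug
import Fermat.Agent.N4F.E.NormRedFinal
import Fermat.Agent.N4F.C.Main
import Fermat.Agent.N4F.C.DegOne
import Fermat.Agent.N4F.C.ChartLevelInst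
import Fermat.Agent.S18

set_option autoImplicit false

open ModularCurve AlgebraicCurve

namespace Fermat.Agent.N4F.Res.BlocksFinal

open Fermat.Agent.N4F.Res.FromBlocks Fermat.Agent.N4F.Res.FinalCond Fermat.Agent.N4F.C

/-- **Block C, unconditional**: the canonical place reduction at every prime `ℓ ∤ N` and every
valuation subring `A` of `ℚ̄` over `ℓ`, with (T2), (T3), (T4). -/
theorem cMain (N : ℕ) [NeZero N] (ℓ : ℕ) (hℓ : ℓ.Prime) (hℓN : ¬ ℓ ∣ N)
    (A : ValuationSubring Qb) (hA : A.LiesOverPrime ℓ) : CMain N A :=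
  Fermat.Agent.N4F.C.Main.cMain_of hℓ hA hℓN
    (Fermat.Agent.N4F.C.DegOne.deg_eq_one_Ft A N)
    (Fermat.Agent.N4F.C.ChartLevelInst.levelHyp A N hℓ hA)

/-- **S18 in the shape consumed by `FromBlocks`**, unconditional. -/
theorem s18Shape (N : ℕ) [NeZero N] (ℓ : ℕ) (hℓ : ℓ.Prime) (hℓN : ¬ ℓ ∣ N)
    (A : ValuationSubring Qb) (hA : A.LiesOverPrime ℓ) : S18Shape N ℓ A :=
  fun h m hm z hmz hz =>
    haveI : Fact ℓ.Prime := ⟨hℓ⟩
    Fermat.Agent.S18.result N hℓN A hA h m hm z hmz hz

/-- **All four blocks**, given the E-tors block. -/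
theorem blocks_of_normRed
    (hE : ∀ (N : ℕ) [NeZero N] (ℓ : ℕ) (hℓ : ℓ.Prime), ¬ ℓ ∣ N →
      ∀ A : ValuationSubring Qb, A.LiesOverPrime ℓ → NormRedAll N ℓ hℓ A) : Blocks where
  kummer N _ := Fermat.Agent.N4F.Tors.KummerPlug.kummerPackage N
  cMain N _ ℓ hℓ hℓN A hA := cMain N ℓ hℓ hℓN A hA
  normRed N _ ℓ hℓ hℓN A hA := hE N ℓ hℓ hℓN A hA
  s18 N _ ℓ hℓ hℓN A hA := s18Shape N ℓ hℓ hℓN A hA

/-- **All four blocks from the characteristic-polynomial form of (†α).** -/
theorem blocks_of_charpolyForm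
    (h : Fermat.Agent.N4F.E.NormFromCharpoly.AlphaCharpolyForm) : Blocks :=
  blocks_of_normRed fun N _ ℓ hℓ hℓN A hA =>
    Fermat.Agent.N4F.E.NormRedFinal.normRed_of_charpolyForm h N ℓ hℓ hℓN A hA

/-- **All four blocks from the norm form of (†α).** -/
theorem blocks_of_normForm
    (h : Fermat.Agent.N4F.E.DaggerAdapter.AlphaNormForm) : Blocks :=
  blocks_of_normRed fun N _ ℓ hℓ hℓN A hA =>
    Fermat.Agent.N4F.E.NormRedFinal.normRed_of_normForm h N ℓ hℓ hℓN A hA

/-- **All four blocks from `NormReduction.DaggerTarget`.** -/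
theorem blocks_of_daggerTarget
    (h : Fermat.Agent.N4F.E.NormReduction.DaggerTarget) : Blocks :=
  blocks_of_normRed fun N _ ℓ hℓ hℓN A hA =>
    Fermat.Agent.N4F.E.NormRedFinal.normRed_of_daggerTarget h N ℓ hℓ hℓN A hA

/-- The Eichler–Shimura relation on torsion at all good primes (input of S30/S31), given the
blocks. -/
theorem esOnTorsionAll (B : Blocks) (N : ℕ) [NeZero N] :
    Fermat.Agent.N4F.Res.ESOnTorsionAll N :=
  (B.inputs N).esOnTorsionAll

end Fermat.Agent.N4F.Res.BlocksFinal
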